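import Fermat.Agent.Engine.TW.Tame
import Fermat.Agent.GalCoh.Selmer
import Fermat.Agent.GalCoh.Descent.LocalImage
import Fermat.Agent.GalCoh.Descent.Mu
import Fermat.Agent.Frobenius.Exists
import Mathlib.LinearAlgebra.FiniteDimensional.Lemmas
import Mathlib.GroupTheory.OrderOfElement

/-!
# Unramified classes at a prime outside `p`

They have dimension at most `h⁰`, and a dual class orthogonal to all of them is unramified.
-/

set_option autoImplicit false

noncomputable section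

set_option maxSynthPendingDepth 5

namespace Fermat.Agent.GalCoh

open ExtCitation Module Descent
open scoped Pointwise
open Fermat.Agent.Engine.TW (IsFiniteLevel cocycle_frobenius_relation cocycle_pow_of_trivial
  cocycle_eq_zero_of_frobenius)

local notation "Ω" => AlgebraicClosure ℚ
local notation "Γ" => (AlgebraicClosure ℚ ≃ₐ[ℚ] AlgebraicClosure ℚ)

local instance isAlgebraicQbar_ur : Algebra.IsAlgebraic ℚ (AlgebraicClosure ℚ) :=
  AlgebraicClosure.isAlgebraic ℚ

variable (u : Nat.Primes)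

/-- The decomposition group of the standard place. -/
abbrev stdDecomp : Subgroup Γ := (primeLocalPlace u).decompositionSubgroup ℚ

theorem stdDecomp_eq :
    ((1 : Γ) • primeLocalPlace u).decompositionSubgroup ℚ = stdDecomp u :=
  congrArg (fun A => A.decompositionSubgroup ℚ) (one_smul Γ (primeLocalPlace u))

theorem conjLoc_one (v : Place) (x : placeGroup v) : conjLoc v 1 x = placeLoc v x := by
  show 1 * placeLoc v x * 1⁻¹ = _
  rw [inv_one, one_mul, mul_one]

theorem placeLoc_mem_stdDecomp (x : placeGroup (Sum.inr u)) :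
    placeLoc (Sum.inr u) x ∈ stdDecomp u :=
  stdDecomp_eq u ▸ conjLoc_one (Sum.inr u) x ▸ conjLoc_mem_decomposition u 1 x

/-- The local group maps onto the decomposition group. -/
def toStd : placeGroup (Sum.inr u) →* ↥(stdDecomp u) :=
  (placeLoc (Sum.inr u)).codRestrict _ (placeLoc_mem_stdDecomp u)

@[simp] theorem coe_toStd (x : placeGroup (Sum.inr u)) :
    (toStd u x : Γ) = placeLoc (Sum.inr u) x := rfl

theorem toStd_surjective : Function.Surjective (toStd u) := fun g => by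
  obtain ⟨a, ha⟩ := exists_conjLoc_eq u 1 (σ := (g : Γ)) ((stdDecomp_eq u).symm ▸ g.2)
  exact ⟨a, Subtype.ext ((conjLoc_one (Sum.inr u) a).symm.trans ha)⟩

/-- A level-constant function on the local group descends to the decomposition group. -/
theorem exists_descend {X : Type} {f : placeGroup (Sum.inr u) → X}
    (hf : (localLevels (placeLoc (Sum.inr u))).IsCts₁ f) :
    ∃ (f₀ : ↥(stdDecomp u) → X) (L : IntermediateField ℚ Ω), FiniteDimensional ℚ L ∧
      (∀ a, f₀ (toStd u a) = f a) ∧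
      ∀ g : ↥(stdDecomp u), (∀ x ∈ L, (g : Γ) x = x) → f₀ g = f 1 := by
  obtain ⟨L, hL, h⟩ := (isCts₁_localLevels_iff _ _).mp hf
  choose pre hpre using toStd_surjective u
  have hsame : ∀ a b, toStd u a = toStd u b → f a = f b := fun a b e => by
    rw [← mul_inv_cancel_left a b]
    refine (h a (a⁻¹ * b) ?_).symm
    rw [← coe_toStd, map_mul, map_inv, e, inv_mul_cancel]
    exact one_mem _
  refine ⟨fun g => f (pre g), L, hL, fun a => hsame _ _ (hpre _), fun g hg => ?_⟩
  have h1 := h 1 (pre g) ((IntermediateField.mem_fixingSubgroup_iff _ _).mpr fun x hx => by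
    rw [← coe_toStd, hpre]; exact hg x hx)
  rwa [one_mul] at h1

variable {u} {p : ℕ} [Fact p.Prime] {V : Type} [AddCommGroup V] [Module (ZMod p) V]
  {ρ : Representation (ZMod p) Γ V}

/-- A continuous cocycle of the local group descends. -/
theorem exists_descend_cocycle {σ : Representation (ZMod p) Γ V} (hσ : IsCtsRep fullLevels σ)
    {c : placeGroup (Sum.inr u) → V}
    (hc : c ∈ Z1 (localLevels (placeLoc (Sum.inr u))) (σ.comp (placeLoc (Sum.inr u)))) :
    ∃ c₀ : ↥(stdDecomp u) → V, (∀ a, c₀ (toStd u a) = c a) ∧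
      (∀ g h, c₀ (g * h) = c₀ g + σ.comp (stdDecomp u).subtype g (c₀ h)) ∧
      IsFiniteLevel (σ.comp (stdDecomp u).subtype) c₀ := by
  obtain ⟨hcoc, hcts⟩ := mem_Z1_iff.mp hc
  obtain ⟨c₀, L, hL, hc₀, h1⟩ := exists_descend u hcts
  obtain ⟨U, ⟨L', hL', hL'U⟩, hU⟩ := hσ
  refine ⟨c₀, hc₀, fun g h => ?_, L ⊔ L', IntermediateField.finiteDimensional_sup L L', fun g hg =>
    ⟨?_, ?_⟩⟩
  · obtain ⟨a, rfl⟩ := toStd_surjective u g
    obtain ⟨b, rfl⟩ := toStd_surjective u h
    rw [← map_mul, hc₀, hc₀, hc₀, hcoc, add_comm]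
    rfl
  · exact hU _ (hL'U ((IntermediateField.mem_fixingSubgroup_iff _ _).mpr fun x hx =>
      hg x ((le_sup_right : L' ≤ L ⊔ L') hx)))
  · rw [h1 g fun x hx => hg x ((le_sup_left : L ≤ L ⊔ L') hx), Z1.map_one hc]

variable (u ρ) in
/-- The cochains killing inertia. -/
def urCochains : Submodule (ZMod p) (placeGroup (Sum.inr u) → V) where
  carrier := {c | ∀ a, placeLoc (Sum.inr u) a ∈ (primeLocalPlace u).inertiaSubgroupIn ℚ → c a = 0}
  zero_mem' := fun _ _ => rfl
  add_mem' := fun {c d} hc hd a ha => by simp [hc a ha, hd a ha]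
  smul_mem' := fun t c hc a ha => by simp [hc a ha]

variable (u ρ) in
/-- The unramified classes. -/
def urClasses :
    Submodule (ZMod p) (H1 (localLevels (placeLoc (Sum.inr u))) (ρ.comp (placeLoc (Sum.inr u)))) :=
  ((urCochains (p := p) (V := V) u).comap (Z1 _ _).subtype).map (H1mk _ _)

variable (hI : ∀ τ ∈ (primeLocalPlace u).inertiaSubgroupIn ℚ, ρ τ = 1)
  (hρ : IsCtsRep fullLevels ρ)

include hI hρ in
/-- The unramified classes have dimension at most `h⁰`. -/
theorem finrank_urClasses_le [FiniteDimensional (ZMod p) V] :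
    FiniteDimensional (ZMod p) (urClasses u ρ) ∧
      finrank (ZMod p) (urClasses u ρ) ≤
        finrank (ZMod p) (H0 (ρ.comp (placeLoc (Sum.inr u)))) := by
  obtain ⟨φ, hφ⟩ := Frobenius.exists_isFrobeniusAt_qbar u.2 (primeLocalPlace_liesOver u)
  obtain ⟨â, hâ⟩ := toStd_surjective u ⟨φ, hφ.choose⟩
  let σ := ρ.comp (placeLoc (Sum.inr u))
  let L := localLevels (placeLoc (Sum.inr u))
  let W : Submodule (ZMod p) ↥(Z1 L σ) := (urCochains (p := p) (V := V) u).comap (Z1 L σ).subtype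
  let ev : W →ₗ[ZMod p] V :=
    { toFun := fun c => (c.1.1 : placeGroup (Sum.inr u) → V) â
      map_add' := fun _ _ => rfl
      map_smul' := fun _ _ => rfl }
  have hev : Function.Injective ev := by
    refine LinearMap.ker_eq_bot.mp ((Submodule.eq_bot_iff _).mpr fun c hc => ?_)
    obtain ⟨c₀, h0, hcoc, hlev⟩ := exists_descend_cocycle hρ c.1.2
    have hall := cocycle_eq_zero_of_frobenius u.2 (primeLocalPlace_liesOver u) hcoc hlev
      (φ := toStd u â) (by rw [hâ]; exact hφ) (by rw [h0]; exact LinearMap.mem_ker.mp hc)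
      fun g hg => by
        obtain ⟨b, rfl⟩ := toStd_surjective u g
        rw [h0]
        exact c.2 b hg
    exact Subtype.ext (Subtype.ext (funext fun a => (h0 a).symm.trans (hall _)))
  have hWfin : FiniteDimensional (ZMod p) W := Module.Finite.of_injective ev hev
  have hrange : urClasses u ρ = LinearMap.range ((H1mk L σ).comp W.subtype) := by
    rw [LinearMap.range_comp, Submodule.range_subtype]; rfl
  rw [hrange]
  refine ⟨inferInstance, ?_⟩
  have hσ : IsCtsRep L σ := IsCtsRep.comp (fullLevels.compat_comap _) hρ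
  let δ : V →ₗ[ZMod p] W :=
    { toFun := fun v => ⟨⟨d0 σ v, d0_mem_Z1 hσ v⟩, fun a ha => by
        show ρ (placeLoc (Sum.inr u) a) v - v = 0
        rw [hI _ ha, Module.End.one_apply, sub_self]⟩
      map_add' := fun v w => Subtype.ext (Subtype.ext (map_add (d0 σ) v w))
      map_smul' := fun t v => Subtype.ext (Subtype.ext (map_smul (d0 σ) t v)) }
  have hδ : LinearMap.ker δ ≤ H0 σ := fun v hv g => by
    have h := congrFun (congrArg (fun w : W => (w.1.1 : placeGroup (Sum.inr u) → V))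
      (LinearMap.mem_ker.mp hv)) g
    exact sub_eq_zero.mp h
  have hδ2 : LinearMap.range δ ≤ LinearMap.ker ((H1mk L σ).comp W.subtype) := by
    rintro _ ⟨v, rfl⟩
    exact LinearMap.mem_ker.mpr (H1mk_eq_zero_iff.mpr ⟨v, rfl⟩)
  have h1 := LinearMap.finrank_range_add_finrank_ker ((H1mk L σ).comp W.subtype)
  have h2 := LinearMap.finrank_range_add_finrank_ker δ
  have h3 := Submodule.finrank_mono hδ2
  have h4 := Submodule.finrank_mono hδ
  have h5 := LinearMap.finrank_le_finrank_of_injective hev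
  show _ ≤ finrank (ZMod p) (H0 σ)
  linarith

/-- The sums `v + φ v + ⋯ + φ^(n-1) v`. -/
def partialSum (T : Module.End (ZMod p) V) (v : V) (n : ℕ) : V :=
  ∑ i ∈ Finset.range n, (T ^ i) v

theorem partialSum_add (T : Module.End (ZMod p) V) (v : V) (a b : ℕ) :
    partialSum T v (a + b) = partialSum T v a + (T ^ a) (partialSum T v b) := by
  simp only [partialSum, Finset.sum_range_add, map_sum, ← Module.End.mul_apply, pow_add]

theorem partialSum_mul_period (T : Module.End (ZMod p) V) (v : V) {e : ℕ} (he : T ^ e = 1)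
    (j : ℕ) : partialSum T v (e * j) = j • partialSum T v e := by
  induction j with
  | zero => simp [partialSum]
  | succ j ih =>
    rw [Nat.mul_succ, add_comm, partialSum_add, he, Module.End.one_apply, ih, succ_nsmul, add_comm]

include hI hρ in
/-- An unramified cocycle with prescribed value at Frobenius. -/
theorem exists_ur_cocycle [Finite V] {φ : ↥(stdDecomp u)}
    (hφ : (primeLocalPlace u).IsFrobeniusAt (φ : Γ) (u : ℕ)) (v : V) :
    ∃ x : ↥(stdDecomp u) → V, x φ = v ∧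
      (∀ g : ↥(stdDecomp u), (g : Γ) ∈ (primeLocalPlace u).inertiaSubgroupIn ℚ → x g = 0) ∧
      (∀ g h, x (g * h) = x g + ρ (g : Γ) (x h)) ∧
      ∃ L : IntermediateField ℚ Ω, FiniteDimensional ℚ L ∧
        ∀ g : ↥(stdDecomp u), (∀ a ∈ L, (g : Γ) a = a) → x g = 0 := by
  have hp : p.Prime := Fact.out
  have hA := primeLocalPlace_liesOver u
  obtain ⟨U, ⟨L, hL, hLU⟩, hU⟩ := hρ
  have : Finite (Module.End (ZMod p) V) := Finite.of_injective _ DFunLike.coe_injective
  -- `ρ φ` has finite order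
  obtain ⟨e, he, hTe⟩ : ∃ e, 0 < e ∧ ρ (φ : Γ) ^ e = 1 := by
    have h := isOfFinOrder_of_finite (MonoidHom.toHomUnits ρ (φ : Γ))
    obtain ⟨e, he, h1⟩ := isOfFinOrder_iff_pow_eq_one.mp h
    exact ⟨e, he, by
      have h2 := congrArg Units.val h1
      rw [Units.val_pow_eq_pow_val, MonoidHom.coe_toHomUnits, Units.val_one] at h2
      exact h2⟩
  set T := ρ (φ : Γ) with hT
  set M := e * p with hM
  have hTM : T ^ M = 1 := by rw [hM, pow_mul, hTe, one_pow]
  have hsum : partialSum T v M = 0 := by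
    rw [hM, partialSum_mul_period T v hTe, ← Nat.cast_smul_eq_nsmul (ZMod p), ZMod.natCast_self,
      zero_smul]
  -- the unramified extension of degree `M`
  have hM0 : 0 < M := Nat.mul_pos he hp.pos
  set N := (u : ℕ) ^ M - 1 with hN
  have hupow : 1 < (u : ℕ) ^ M := Nat.one_lt_pow hM0.ne' u.2.one_lt
  have : NeZero N := ⟨by omega⟩
  have : NeZero ((N : ℕ) : Ω) := ⟨Nat.cast_ne_zero.mpr (by omega)⟩
  have hNu : ¬ (u : ℕ) ∣ N := fun h => by
    have h' : (u : ℕ) ∣ (u : ℕ) ^ M := dvd_pow_self _ hM0.ne'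
    have : (u : ℕ) ∣ (u : ℕ) ^ M - N := Nat.dvd_sub h' h
    rw [show (u : ℕ) ^ M - N = 1 by omega] at this
    exact u.2.one_lt.ne' (Nat.dvd_one.mp this)
  obtain ⟨ζ, hζ⟩ := HasEnoughRootsOfUnity.exists_primitiveRoot Ω N
  have := IntermediateField.adjoin.finiteDimensional (Algebra.IsIntegral.isIntegral (R := ℚ) ζ)
  obtain ⟨F, hLF, hF, hFg⟩ := LocalRingP.exists_galois_level (L ⊔ IntermediateField.adjoin ℚ {ζ})
  -- every element is `φ ^ n` times inertia
  have hφζ : ∀ n : ℕ, ((φ : Γ) ^ n) ζ = ζ ^ (u : ℕ) ^ n := fun n => by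
    induction n with
    | zero => simp
    | succ n ih =>
      rw [pow_succ, AlgEquiv.mul_apply, Descent.frobenius_root_of_unity u.2 hA hNu hφ hζ.pow_eq_one,
        map_pow, ih, ← pow_mul, ← pow_succ]
  have hperiod : ∀ a b : ℕ, ζ ^ (u : ℕ) ^ a = ζ ^ (u : ℕ) ^ b → a % M = b % M := by
    have hred : ∀ a, ζ ^ (u : ℕ) ^ a = ζ ^ (u : ℕ) ^ (a % M) := fun a => by
      have h1 : ζ ^ (u : ℕ) ^ M = ζ := by
        rw [show (u : ℕ) ^ M = N + 1 by omega, pow_succ, hζ.pow_eq_one, one_mul]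
      have hj : ∀ j, ζ ^ (u : ℕ) ^ (M * j) = ζ := fun j => by
        induction j with
        | zero => simp
        | succ j ih => rw [Nat.mul_succ, pow_add, pow_mul, ih, h1]
      conv_lhs => rw [← Nat.div_add_mod a M, pow_add, pow_mul, hj]
    intro a b h
    rw [hred a, hred b] at h
    have hlt : ∀ a, (u : ℕ) ^ (a % M) < N ∨ N ≤ 1 := fun a => by
      by_cases h1 : N ≤ 1
      · exact Or.inr h1
      refine Or.inl ?_
      have : (u : ℕ) ^ (a % M) * 2 ≤ (u : ℕ) ^ M := by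
        calc (u : ℕ) ^ (a % M) * 2 ≤ (u : ℕ) ^ (a % M) * (u : ℕ) :=
              Nat.mul_le_mul_left _ u.2.two_le
          _ = (u : ℕ) ^ (a % M + 1) := (pow_succ _ _).symm
          _ ≤ (u : ℕ) ^ M := Nat.pow_le_pow_right u.2.pos (Nat.mod_lt a hM0)
      have := Nat.one_le_pow (a % M) (u : ℕ) u.2.pos
      omega
    have hN1 : ¬ N ≤ 1 := by
      have hM2 : 2 ≤ M := le_trans hp.two_le (Nat.le_mul_of_pos_left p he)
      have : 4 ≤ (u : ℕ) ^ M :=
        le_trans (by norm_num) ((Nat.pow_le_pow_left u.2.two_le 2).trans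
          (Nat.pow_le_pow_right u.2.pos hM2))
      omega
    exact Nat.pow_right_injective u.2.two_le
      (hζ.pow_inj ((hlt a).resolve_right hN1) ((hlt b).resolve_right hN1) h)
  have hex : ∀ g : ↥(stdDecomp u), ∃ n : ℕ, (g : Γ) ζ = ζ ^ (u : ℕ) ^ n ∧
      ρ (g : Γ) = T ^ n := fun g => by
    obtain ⟨n, τ, hτ, h⟩ := LocalRingP.exists_pow_mul_inertia_eqOn u.2 hA hφ g.2 F
    refine ⟨n, ?_, ?_⟩
    · rw [h ζ (hLF ((le_sup_right : _ ≤ L ⊔ IntermediateField.adjoin ℚ {ζ})
        (IntermediateField.mem_adjoin_simple_self ℚ ζ))), AlgEquiv.mul_apply,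
        inertia_fixes_root u.2 hA hNu hτ hζ.pow_eq_one, hφζ]
    · have hs : ((φ : Γ) ^ n * τ)⁻¹ * (g : Γ) ∈ U := hLU
        ((IntermediateField.mem_fixingSubgroup_iff _ _).mpr fun a ha => by
          rw [AlgEquiv.mul_apply, h a (hLF ((le_sup_left : L ≤ _) ha)), ← AlgEquiv.mul_apply,
            inv_mul_cancel, AlgEquiv.one_apply])
      rw [← mul_inv_cancel_left ((φ : Γ) ^ n * τ) (g : Γ), map_mul, hU _ hs, mul_one, map_mul,
        hI τ hτ, mul_one, map_pow, hT]
  choose n hn hρn using hex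
  have hcongr : ∀ a b : ℕ, a % M = b % M → partialSum T v a = partialSum T v b := by
    have hmod : ∀ a, partialSum T v a = partialSum T v (a % M) := fun a => by
      conv_lhs => rw [← Nat.div_add_mod a M]
      rw [partialSum_add, partialSum_mul_period T v hTM, hsum, smul_zero, zero_add, pow_mul, hTM,
        one_pow, Module.End.one_apply]
    intro a b h
    rw [hmod a, hmod b, h]
  refine ⟨fun g => partialSum T v (n g), ?_, fun g hg => ?_, fun g h => ?_,
    L ⊔ IntermediateField.adjoin ℚ {ζ}, inferInstance, fun g hg => ?_⟩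
  · refine (hcongr (n φ) 1 (hperiod _ _ (by rw [← hn, ← hφζ 1, pow_one]))).trans ?_
    simp [partialSum]
  · refine (hcongr (n g) 0 (hperiod _ _ ?_)).trans (by simp [partialSum])
    rw [← hn, inertia_fixes_root u.2 hA hNu hg hζ.pow_eq_one, pow_zero, pow_one]
  · rw [hρn g, ← partialSum_add]
    refine hcongr _ _ (hperiod _ _ ?_)
    rw [← hn, Subgroup.coe_mul, AlgEquiv.mul_apply, hn h, map_pow, hn g, ← pow_mul, ← pow_add]
  · refine (hcongr (n g) 0 (hperiod _ _ ?_)).trans (by simp [partialSum])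
    rw [← hn, hg ζ ((le_sup_right : _ ≤ L ⊔ IntermediateField.adjoin ℚ {ζ})
      (IntermediateField.mem_adjoin_simple_self ℚ ζ)), pow_zero, pow_one]

/-- The product of `F_p` with the dual, twisted by an unramified cocycle. -/
def twistedRep {x : ↥(stdDecomp u) → V} (hx : ∀ g h, x (g * h) = x g + ρ (g : Γ) (x h)) :
    Representation (ZMod p) ↥(stdDecomp u) (ZMod p × Dual (ZMod p) V) where
  toFun g := LinearMap.prod
    ((cycloChar p (g : Γ) : ZMod p) • LinearMap.fst _ _ _ +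
      (LinearMap.applyₗ (x g)) ∘ₗ dualMu ρ (g : Γ) ∘ₗ LinearMap.snd _ _ _)
    (dualMu ρ (g : Γ) ∘ₗ LinearMap.snd _ _ _)
  map_one' := by
    have h1 : x 1 = 0 := by simpa using hx 1 1
    refine LinearMap.ext fun m => Prod.ext ?_ ?_ <;> simp [h1]
  map_mul' g h := by
    refine LinearMap.ext fun m => Prod.ext ?_ ?_
    · show (cycloChar p ((g * h : ↥(stdDecomp u)) : Γ) : ZMod p) • m.1 +
          dualMu ρ ((g * h : ↥(stdDecomp u)) : Γ) m.2 (x (g * h)) =
        (cycloChar p (g : Γ) : ZMod p) • ((cycloChar p (h : Γ) : ZMod p) • m.1 +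
          dualMu ρ (h : Γ) m.2 (x h)) + dualMu ρ (g : Γ) (dualMu ρ (h : Γ) m.2) (x g)
      simp only [Subgroup.coe_mul, map_mul, Units.val_mul, Module.End.mul_apply, hx, map_add,
        smul_eq_mul]
      have e : dualMu ρ (g : Γ) (dualMu ρ (h : Γ) m.2) (ρ (g : Γ) (x h)) =
          (cycloChar p (g : Γ) : ZMod p) * dualMu ρ (h : Γ) m.2 (x h) := by
        rw [dualMu_apply, ← Module.End.mul_apply (ρ (g : Γ)⁻¹), ← map_mul, inv_mul_cancel, map_one,
          Module.End.one_apply]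
      rw [e]
      ring
    · simp [map_mul]

include hI hρ in
/-- **A dual class orthogonal to the unramified classes is unramified.** -/
theorem eq_zero_of_orthogonal_urClasses [FiniteDimensional (ZMod p) V] (hup : p ≠ (u : ℕ))
    {inv : InvFamily p} (hinv : inv.IsReciprocal)
    (hd : IsCtsRep (localLevels (placeLoc (Sum.inr u))) ((dualMu ρ).comp (placeLoc (Sum.inr u))))
    (y : ↥(Z1 (localLevels (placeLoc (Sum.inr u))) ((dualMu ρ).comp (placeLoc (Sum.inr u)))))
    (horth : ∀ z ∈ urClasses u ρ, inv (Sum.inr u)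
      (((evPairing ρ).res (placeLoc (Sum.inr u))).cup hd z (H1mk (localLevels (placeLoc (Sum.inr u)))
        ((dualMu ρ).comp (placeLoc (Sum.inr u))) y)) = 0)
    (a : placeGroup (Sum.inr u))
    (ha : placeLoc (Sum.inr u) a ∈ (primeLocalPlace u).inertiaSubgroupIn ℚ) :
    y.1 a = 0 := by
  have hA := primeLocalPlace_liesOver u
  have hχI : ∀ τ ∈ (primeLocalPlace u).inertiaSubgroupIn ℚ, cycloChar p τ = 1 := fun τ hτ =>
    cycloChar_eq_one (inertia_fixes_root u.2 hA
      (fun h => hup ((Nat.prime_dvd_prime_iff_eq u.2 (Fact.out : p.Prime)).mp h).symm) hτ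
      (zetaP_spec p).pow_eq_one)
  have hdI : ∀ τ ∈ (primeLocalPlace u).inertiaSubgroupIn ℚ, dualMu ρ τ = 1 := fun τ hτ => by
    refine LinearMap.ext fun f => LinearMap.ext fun w => ?_
    rw [dualMu_apply, hχI τ hτ, hI _ (inv_mem hτ)]
    simp
  obtain ⟨φ', hφ'⟩ := Frobenius.exists_isFrobeniusAt_qbar u.2 hA
  let φ : ↥(stdDecomp u) := ⟨φ', hφ'.choose⟩
  obtain ⟨τ, hτ⟩ : ∃ τ : ↥(stdDecomp u), toStd u a = τ := ⟨_, rfl⟩
  have hτI : (τ : Γ) ∈ (primeLocalPlace u).inertiaSubgroupIn ℚ := by rw [← hτ]; exact ha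
  refine LinearMap.ext fun v => ?_
  have : Finite V := Module.finite_of_finite (ZMod p)
  obtain ⟨x, hxφ, hxI, hx, Lx, hLx, hxlev⟩ := exists_ur_cocycle hI hρ (φ := φ) hφ' v
  -- the class of `x`
  let ι := placeLoc (Sum.inr u)
  have hxZ : (fun b => x (toStd u b)) ∈ Z1 (localLevels ι) (ρ.comp ι) := by
    refine mem_Z1_iff.mpr ⟨fun b b' => ?_, (isCts₁_localLevels_iff _ _).mpr
      ⟨Lx, hLx, fun b s hs => ?_⟩⟩
    · rw [map_mul, hx, add_comm]; rfl
    · show x (toStd u (b * s)) = x (toStd u b)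
      rw [map_mul, hx, hxlev (toStd u s) fun c hc =>
        (IntermediateField.mem_fixingSubgroup_iff _ _).mp hs c hc, map_zero, add_zero]
  have hmem : H1mk (localLevels ι) (ρ.comp ι) ⟨_, hxZ⟩ ∈ urClasses u ρ :=
    ⟨⟨_, hxZ⟩, fun b hb => hxI _ hb, rfl⟩
  have h0 := hinv.1 (Sum.inr u) ((horth _ hmem).trans (map_zero _).symm)
  obtain ⟨F, hF, hFd⟩ := mem_B2_iff.mp (H2mk_eq_zero_iff.mp h0)
  obtain ⟨F₀, LF, hLF, hF₀, hF1⟩ := exists_descend u hF
  have hdfull : IsCtsRep fullLevels (dualMu ρ) := by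
    have := IntermediateField.adjoin.finiteDimensional
      (Algebra.IsIntegral.isIntegral (R := ℚ) (zetaP p))
    exact isCtsRep_dualMu hρ ⟨(IntermediateField.adjoin ℚ {zetaP p}).fixingSubgroup,
      ⟨_, inferInstance, le_rfl⟩, fun σ hσ => cycloChar_eq_one
        ((IntermediateField.mem_fixingSubgroup_iff _ _).mp hσ _
          (IntermediateField.mem_adjoin_simple_self ℚ _))⟩
  obtain ⟨y₀, hy₀, hycoc, Ly, hLy, hylev⟩ :=
    exists_descend_cocycle (σ := dualMu ρ) (u := u) hdfull y.2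
  let σ := twistedRep hx
  let c : ↥(stdDecomp u) → ZMod p × Dual (ZMod p) V := fun g => (-F₀ g, y₀ g)
  have hF0rel : ∀ g h, F₀ (g * h) = F₀ g + (cycloChar p (g : Γ) : ZMod p) * F₀ h -
      dualMu ρ (g : Γ) (y₀ h) (x g) := fun g h => by
    obtain ⟨b, rfl⟩ := toStd_surjective u g
    obtain ⟨b', rfl⟩ := toStd_surjective u h
    have h1 : muRep p (ι b) (F b') - F (b * b') + F b =
        dualMu ρ (ι b) (y.1 b') (x (toStd u b)) := (d1_apply _ F b b').symm.trans (congrFun hFd (b, b'))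
    rw [muRep_apply] at h1
    rw [← map_mul, hF₀, hF₀, hF₀, hy₀, coe_toStd]
    linear_combination -h1
  have hc : ∀ g h, c (g * h) = c g + σ g (c h) := fun g h => Prod.ext (by
      show -F₀ (g * h) = -F₀ g + ((cycloChar p (g : Γ) : ZMod p) • (-F₀ h) +
        dualMu ρ (g : Γ) (y₀ h) (x g))
      rw [hF0rel, smul_eq_mul]; ring)
    (hycoc g h)
  have hlev : IsFiniteLevel σ c := by
    obtain ⟨U, ⟨L, hL, hLU⟩, hU⟩ := hρ
    have := IntermediateField.adjoin.finiteDimensional
      (Algebra.IsIntegral.isIntegral (R := ℚ) (zetaP p))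
    refine ⟨L ⊔ Lx ⊔ LF ⊔ Ly ⊔ IntermediateField.adjoin ℚ {zetaP p}, inferInstance,
      fun g hg => ?_⟩
    have hgL : ∀ {E : IntermediateField ℚ Ω}, E ≤ L ⊔ Lx ⊔ LF ⊔ Ly ⊔
        IntermediateField.adjoin ℚ {zetaP p} → ∀ a ∈ E, (g : Γ) a = a := fun hE a ha => hg a (hE ha)
    have h1 := hxlev g (hgL (le_sup_of_le_left (le_sup_of_le_left (le_sup_of_le_left le_sup_right))))
    obtain ⟨h2, h3⟩ := hylev g (hgL (le_sup_of_le_left le_sup_right))
    have hχ : cycloChar p (g : Γ) = 1 :=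
      cycloChar_eq_one (hgL le_sup_right _ (IntermediateField.mem_adjoin_simple_self ℚ _))
    have h2' : dualMu ρ (g : Γ) = 1 := h2
    refine ⟨LinearMap.ext fun m => Prod.ext ?_ ?_, Prod.ext ?_ h3⟩
    · simp [σ, twistedRep, hχ, h1]
    · simp [σ, twistedRep, h2']
    · show -F₀ g = 0
      have h4 := hF1 g (hgL (le_sup_of_le_left (le_sup_of_le_left le_sup_right)))
      have h5 := hF0rel 1 1
      have hx1 : x 1 = 0 := by simpa using hx 1 1
      simp [hx1] at h5
      rw [h4, ← hF₀ 1, map_one, h5, neg_zero]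
  have hσI : ∀ g : ↥(stdDecomp u), (g : Γ) ∈ (primeLocalPlace u).inertiaSubgroupIn ℚ → σ g = 1 :=
    fun g hg => LinearMap.ext fun m => Prod.ext (by simp [σ, twistedRep, hχI _ hg, hxI g hg])
      (by simp [σ, twistedRep, hdI _ hg])
  obtain ⟨h1, h2⟩ := cocycle_frobenius_relation u.2 hup hA hc hlev
    (fun g hg => by rw [hσI g hg, one_pow]) (φ := φ) hφ' hτI
  rw [cocycle_pow_of_trivial hc (hσI τ hτI)] at h1
  have h3 : c (φ * τ * φ⁻¹ * φ) = ((u : ℕ) : ZMod p) • c τ + σ (τ ^ (u : ℕ)) (c φ) := by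
    rw [hc, h1, h2]
  rw [inv_mul_cancel_right, hc, map_pow, hσI τ hτI, one_pow, Module.End.one_apply,
    add_comm (((u : ℕ) : ZMod p) • c τ), add_right_inj] at h3
  have e2 := congrArg Prod.snd h3
  have e1 := congrArg Prod.fst h3
  change dualMu ρ (φ : Γ) (y₀ τ) = ((u : ℕ) : ZMod p) • y₀ τ at e2
  change (cycloChar p (φ : Γ) : ZMod p) • (-F₀ τ) + dualMu ρ (φ : Γ) (y₀ τ) (x φ) =
    ((u : ℕ) : ZMod p) • (-F₀ τ) at e1
  have hχφ : ((cycloChar p (φ : Γ) : ZMod p)) = ((u : ℕ) : ZMod p) := by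
    have h4 := Descent.frobenius_root_of_unity u.2 hA
      (fun h => hup ((Nat.prime_dvd_prime_iff_eq u.2 (Fact.out : p.Prime)).mp h).symm) hφ'
      (zetaP_spec p).pow_eq_one
    refine mu_injective (p := p) ?_
    have h5 := apply_mu (p := p) (φ : Γ) 1
    rw [mul_one] at h5
    rw [← h5, mu, ZMod.val_one, pow_one, h4, ← pow_one (zetaP p ^ (u : ℕ)), ← pow_mul, mul_one]
    exact (mu_eq_pow rfl).symm
  rw [hχφ, e2, LinearMap.smul_apply, hxφ, add_eq_left, smul_eq_zero] at e1
  rw [← hy₀ a, hτ, LinearMap.zero_apply]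
  refine e1.resolve_left fun h0 => hup ?_
  rw [ZMod.natCast_eq_zero_iff] at h0
  exact (Nat.prime_dvd_prime_iff_eq (Fact.out : p.Prime) u.2).mp h0

end Fermat.Agent.GalCoh
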