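import Fermat.Agent.GalCoh.GW.Inequality
import Fermat.Agent.GalCoh.GW.Unramified

/-!
# The Greenberg–Wiles inequality

From a large set of places `T` to an arbitrary `S`: the unramified classes as conditions at
`T ∖ S`.
-/

set_option autoImplicit false

noncomputable section

set_option maxSynthPendingDepth 5

open scoped Pointwise

namespace Fermat.Agent.GalCoh

open ExtCitation Module

local notation "Ω" => AlgebraicClosure ℚ
local notation "Γ" => (AlgebraicClosure ℚ ≃ₐ[ℚ] AlgebraicClosure ℚ)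

variable {p : ℕ} [Fact p.Prime] {V : Type} [AddCommGroup V] [Module (ZMod p) V]

theorem isCtsRep_levelsS_mono {S T : Finset Nat.Primes} (hST : S ⊆ T)
    {σ : Representation (ZMod p) Γ V} (hσ : IsCtsRep (levelsS S) σ) : IsCtsRep (levelsS T) σ := by
  obtain ⟨U, hU, h⟩ := hσ
  exact ⟨U, by simpa using compat_levelsS_mono hST hU, h⟩

theorem inertia_apply_eq_one {S : Finset Nat.Primes} {σ : Representation (ZMod p) Γ V}
    (hσ : IsCtsRep (levelsS S) σ) {q : Nat.Primes} (hq : q ∉ S) {A : ValuationSubring Ω}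
    (hA : A.LiesOverPrime (q : ℕ)) : ∀ τ ∈ A.inertiaSubgroupIn ℚ, σ τ = 1 := by
  obtain ⟨U, hU, h⟩ := hσ
  exact fun τ hτ => h τ (inertia_le_of_levelsS hU hq hA hτ)

variable (S T : Finset Nat.Primes) (ρ : Representation (ZMod p) Γ V) (𝓛 : LocalConditions S ρ)

/-- The conditions on a larger set: unramified at the new primes. -/
def extendConds : LocalConditions T ρ
  | Sum.inl u => 𝓛 (Sum.inl u)
  | Sum.inr q => if h : q.1 ∈ S then 𝓛 (Sum.inr ⟨q.1, h⟩) else urClasses q.1 ρ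

variable {S T} {ρ}

theorem extendConds_of_mem (q : {q // q ∈ T}) (h : q.1 ∈ S) :
    extendConds S T ρ 𝓛 (Sum.inr q) = 𝓛 (Sum.inr ⟨q.1, h⟩) := dif_pos h

theorem extendConds_of_notMem (q : {q // q ∈ T}) (h : q.1 ∉ S) :
    extendConds S T ρ 𝓛 (Sum.inr q) = urClasses q.1 ρ := dif_neg h

/-- The enlarged conditions are finite dimensional. -/
theorem finiteDimensional_extendConds [FiniteDimensional (ZMod p) V]
    (h𝓛 : ∀ u, FiniteDimensional (ZMod p) (𝓛 u)) (hρ : IsCtsRep (levelsS S) ρ)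
    (hρf : IsCtsRep fullLevels ρ) :
    ∀ u, FiniteDimensional (ZMod p) (extendConds S T ρ 𝓛 u) := by
  rintro (u | q)
  · exact h𝓛 (Sum.inl u)
  · by_cases h : q.1 ∈ S
    · rw [extendConds_of_mem 𝓛 q h]
      exact h𝓛 (Sum.inr ⟨q.1, h⟩)
    · rw [extendConds_of_notMem 𝓛 q h]
      exact (finrank_urClasses_le (u := q.1)
        (inertia_apply_eq_one hρ h (Descent.primeLocalPlace_liesOver q.1)) hρf).1

/-- Inflation carries the Selmer group into the enlarged one. -/
theorem inflMor_mem_Sel (hST : S ⊆ T) (x : H1 (levelsS S) ρ) (hx : x ∈ Sel S ρ 𝓛) :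
    (inflMor ρ hST).map₁ x ∈ Sel T ρ (extendConds S T ρ 𝓛) := by
  obtain ⟨c, rfl⟩ := H1mk_surjective x
  rw [mem_Sel_iff] at hx ⊢
  rintro (u | ⟨q, hq⟩)
  · exact hx (Sum.inl u)
  · by_cases hqS : q ∈ S
    · rw [extendConds_of_mem 𝓛 ⟨q, hq⟩ hqS]
      exact hx (Sum.inr ⟨q, hqS⟩)
    · rw [extendConds_of_notMem 𝓛 ⟨q, hq⟩ hqS]
      obtain ⟨U, hU, hcU⟩ := (mem_Z1_iff.mp c.2).2
      refine ⟨_, fun a ha => ?_, rfl⟩
      have := hcU 1 _ (inertia_le_of_levelsS hU hqS (Descent.primeLocalPlace_liesOver q) ha)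
      rw [one_mul, Z1.map_one c.2] at this
      exact this

/-- A dual Selmer class at `T` comes from `S`. -/
theorem mem_map_dualSel [FiniteDimensional (ZMod p) V] (hST : S ⊆ T) (hpS : pPrime p ∈ S)
    (hρ : IsCtsRep (levelsS S) ρ) (hd : IsCtsRep (levelsS S) (dualMu ρ))
    {inv : InvFamily p} (hinv : inv.IsReciprocal) (y : H1 (levelsS T) (dualMu ρ))
    (hy : y ∈ Sel T (dualMu ρ)
      (dualLocal T ρ inv (isCtsRep_levelsS_mono hST hd) (extendConds S T ρ 𝓛))) :
    y ∈ (Sel S (dualMu ρ) (dualLocal S ρ inv hd 𝓛)).map (inflMor (dualMu ρ) hST).map₁ := by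
  obtain ⟨y, rfl⟩ := H1mk_surjective y
  rw [mem_Sel_iff] at hy
  obtain ⟨hcoc, Uy, hUy, hyU⟩ := mem_Z1_iff.mp y.2
  obtain ⟨Ud, hUd, hdU⟩ := id hd
  have hρf : IsCtsRep fullLevels ρ := by
    obtain ⟨U, hU, h⟩ := hρ
    exact ⟨U, by simpa using compat_levelsS S hU, h⟩
  have hy1 : y.1 1 = 0 := Z1.map_one y.2
  let U' : Subgroup Γ :=
    { carrier := {g | dualMu ρ g = 1 ∧ y.1 g = 0}
      one_mem' := ⟨map_one _, hy1⟩
      mul_mem' := fun {a b} ha hb => ⟨by rw [map_mul, ha.1, hb.1, one_mul], by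
        rw [hcoc, ha.2, hb.2, map_zero, zero_add]⟩
      inv_mem' := fun {a} ha => by
        have h1 : dualMu ρ a⁻¹ = 1 := by
          have := map_mul (dualMu ρ) a⁻¹ a
          rwa [inv_mul_cancel, map_one, ha.1, mul_one, eq_comm] at this
        refine ⟨h1, ?_⟩
        have h := hcoc a⁻¹ a
        rw [inv_mul_cancel, hy1, ha.2, map_zero, zero_add] at h
        exact h.symm }
  have hU' : (levelsS S).mem U' := by
    refine levelsS_mem_of_inertia_le (fullLevels.mono (fullLevels.inf_mem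
      (show fullLevels.mem Ud by simpa using compat_levelsS S hUd)
      (show fullLevels.mem Uy by simpa using compat_levelsS T hUy)) fun g hg =>
        ⟨hdU g hg.1, by simpa [hy1] using hyU 1 g hg.2⟩) fun r hr A hA τ hτ => ?_
    refine ⟨inertia_apply_eq_one hd hr hA τ hτ, ?_⟩
    by_cases hrT : r ∈ T
    · obtain ⟨g, rfl⟩ := Frobenius.exists_smul_eq_of_liesOverPrime_qbar r.2
        (Descent.primeLocalPlace_liesOver r) hA
      have hτ' : g⁻¹ * τ * g ∈ (primeLocalPlace r).inertiaSubgroupIn ℚ := by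
        have := conj_mem_inertiaSubgroupIn hτ g⁻¹
        rwa [inv_inv, inv_smul_smul] at this
      obtain ⟨a, ha⟩ := toStd_surjective r
        ⟨g⁻¹ * τ * g, ((FreyReducible.mem_inertiaSubgroupIn_iff _ _).mp hτ').1⟩
      have ha' : placeLoc (Sum.inr r) a = g⁻¹ * τ * g := congrArg Subtype.val ha
      have hzero : y.1 (g⁻¹ * τ * g) = 0 := by
        rw [← ha']
        refine eq_zero_of_orthogonal_urClasses (u := r) (ρ := ρ)
          (fun t ht => inertia_apply_eq_one hρ hr (Descent.primeLocalPlace_liesOver r) t ht) hρf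
          (fun e => hr ?_) hinv
          ((isCtsRep_levelsS_mono hST hd).comp (compat_locAt T (Sum.inr ⟨r, hrT⟩)))
          ⟨_, (Mor.res (levelsS T) (localLevels (locAt T (Sum.inr ⟨r, hrT⟩))) (dualMu ρ)
            (locAt T (Sum.inr ⟨r, hrT⟩))
            (compat_locAt T (Sum.inr ⟨r, hrT⟩))).cochain₁_mem_Z1 y.2⟩
          (fun z hz => ?_) a (ha'.symm ▸ hτ')
        · rw [show r = pPrime p from Subtype.ext e.symm]
          exact hpS
        · refine (mem_dualLocal_iff T ρ inv _ _ (Sum.inr ⟨r, hrT⟩) _).mp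
            (hy (Sum.inr ⟨r, hrT⟩)) z ?_
          rw [extendConds_of_notMem 𝓛 ⟨r, hrT⟩ hr]
          exact hz
      have h1 : dualMu ρ (g⁻¹ * τ * g) = 1 :=
        inertia_apply_eq_one hd hr (Descent.primeLocalPlace_liesOver r) _ hτ'
      have e : τ = g * (g⁻¹ * τ * g) * g⁻¹ := by group
      rw [e, hcoc, hcoc, hzero, map_zero, zero_add, map_mul, h1, mul_one]
      have h := hcoc g g⁻¹
      rw [mul_inv_cancel, hy1] at h
      exact h.symm
    · have := hyU 1 τ (inertia_le_of_levelsS hUy hrT hA hτ)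
      rwa [one_mul, hy1] at this
  have hy' : y.1 ∈ Z1 (levelsS S) (dualMu ρ) :=
    mem_Z1_iff.mpr ⟨hcoc, U', hU', fun g s hs => by rw [hcoc, hs.2, map_zero, zero_add]⟩
  refine ⟨H1mk (levelsS S) (dualMu ρ) ⟨_, hy'⟩, (mem_Sel_iff _ _ _ _).mpr fun u => ?_, rfl⟩
  rw [mem_dualLocal_iff]
  rcases u with u | ⟨q, hq⟩
  · exact (mem_dualLocal_iff T ρ inv _ _ (Sum.inl u) _).mp (hy (Sum.inl u))
  · intro z hz
    refine (mem_dualLocal_iff T ρ inv _ _ (Sum.inr ⟨q, hST hq⟩) _).mp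
      (hy (Sum.inr ⟨q, hST hq⟩)) z ?_
    rw [extendConds_of_mem 𝓛 ⟨q, hST hq⟩ hq]
    exact hz

open Classical in
/-- The enlarged conditions cost at most the new local invariants. -/
theorem sum_extendConds_le [FiniteDimensional (ZMod p) V] (hST : S ⊆ T)
    (hρ : IsCtsRep (levelsS S) ρ) :
    (∑ u, finrank (ZMod p) (extendConds S T ρ 𝓛 u)) +
        ∑ u, finrank (ZMod p) (H0 (ρ.comp (locAt S u))) ≤
      (∑ u, finrank (ZMod p) (𝓛 u)) + ∑ u, finrank (ZMod p) (H0 (ρ.comp (locAt T u))) := by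
  have hρf : IsCtsRep fullLevels ρ := by
    obtain ⟨U, hU, h⟩ := hρ
    exact ⟨U, by simpa using compat_levelsS S hU, h⟩
  let l : Nat.Primes → ℕ := fun q => if h : q ∈ S then finrank (ZMod p) (𝓛 (Sum.inr ⟨q, h⟩))
    else finrank (ZMod p) (urClasses q ρ)
  let z : Nat.Primes → ℕ := fun q => finrank (ZMod p) (H0 (ρ.comp (placeLoc (Sum.inr q))))
  have hlT : ∀ q : {q // q ∈ T},
      finrank (ZMod p) (extendConds S T ρ 𝓛 (Sum.inr q)) = l q.1 := fun q => by
    by_cases h : q.1 ∈ S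
    · rw [extendConds_of_mem 𝓛 q h]
      simp only [l, dif_pos h]
      rfl
    · rw [extendConds_of_notMem 𝓛 q h]
      simp only [l, dif_neg h]
      rfl
  have hlS : ∀ q : {q // q ∈ S}, finrank (ZMod p) (𝓛 (Sum.inr q)) = l q.1 := fun q => by
    simp only [l, dif_pos q.2]
  have hnew : ∀ q ∈ T \ S, l q ≤ z q := fun q hq => by
    have hqS := (Finset.mem_sdiff.mp hq).2
    rw [show l q = finrank (ZMod p) (urClasses q ρ) from dif_neg hqS]
    exact (finrank_urClasses_le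
      (inertia_apply_eq_one hρ hqS (Descent.primeLocalPlace_liesOver q)) hρf).2
  have hsum := Finset.sum_le_sum hnew
  have e1 : (∑ u, finrank (ZMod p) (extendConds S T ρ 𝓛 u)) =
      finrank (ZMod p) (𝓛 (Sum.inl ())) + ∑ q ∈ T, l q := by
    refine (Fintype.sum_sum_type _).trans ?_
    rw [← Finset.sum_coe_sort T]
    congr 1
    exact Finset.sum_congr rfl fun q _ => hlT q
  have e2 : (∑ u, finrank (ZMod p) (𝓛 u)) =
      finrank (ZMod p) (𝓛 (Sum.inl ())) + ∑ q ∈ S, l q := by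
    refine (Fintype.sum_sum_type _).trans ?_
    rw [← Finset.sum_coe_sort S]
    congr 1
    exact Finset.sum_congr rfl fun q _ => hlS q
  have e3 : ∀ R : Finset Nat.Primes, (∑ u, finrank (ZMod p) (H0 (ρ.comp (locAt R u)))) =
      finrank (ZMod p) (H0 (ρ.comp (placeLoc (Sum.inl ())))) + ∑ q ∈ R, z q := fun R => by
    refine (Fintype.sum_sum_type _).trans ?_
    rw [← Finset.sum_coe_sort R]
    congr 1
  rw [e1, e2, e3, e3, ← Finset.sum_sdiff hST (f := l), ← Finset.sum_sdiff hST (f := z)]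
  linarith

/-- **The Greenberg–Wiles inequality.** -/
theorem greenbergWilesLe_of (hC : CFTInputs p) (hE : EulerFormula p) : GreenbergWilesLe p := by
  intro V _ _ _ S hpS ρ hρ hd inv hinv 𝓛 h𝓛
  classical
  obtain ⟨U, hU, hUρ⟩ := id hρ
  obtain ⟨N, hN, hNU⟩ := exists_splittingLevel p
    (show fullLevels.mem U by simpa using compat_levelsS S hU)
  obtain ⟨Te, hTe⟩ := GW.euler_top hE hN
  obtain ⟨T₁, hST₁, hT₁⟩ := greenbergWilesLarge_of hC hE V S hpS ρ hρ inv hinv
  let T := T₁ ∪ Te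
  have hST : S ⊆ T := hST₁.trans Finset.subset_union_left
  have hρN : ∀ n ∈ N, ρ n = 1 := fun n hn => hUρ n (hNU hn)
  have hdN : ∀ n ∈ N, dualMu ρ n = 1 := fun n hn =>
    LinearMap.ext fun f => LinearMap.ext fun v => by
      rw [dualMu_apply, hN.mu n hn, hρN _ (N.inv_mem hn)]
      simp
  obtain ⟨fd1, -, -⟩ := hTe T Finset.subset_union_right V ρ hρN
  obtain ⟨fd1', -, -⟩ := hTe T Finset.subset_union_right _ (dualMu ρ) hdN
  have := fd1
  have := fd1'
  have := finiteDimensional_H1_of_subset ρ hST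
  have := finiteDimensional_H1_of_subset (dualMu ρ) hST
  have hρf : IsCtsRep fullLevels ρ := ⟨U, by simpa using compat_levelsS S hU, hUρ⟩
  have h𝓛' := finiteDimensional_extendConds (T := T) 𝓛 h𝓛 hρ hρf
  obtain ⟨-, -, hle⟩ := hT₁ T Finset.subset_union_left (isCtsRep_levelsS_mono hST hd)
    (extendConds S T ρ 𝓛) h𝓛'
  refine ⟨inferInstance, inferInstance, ?_⟩
  have hA : finrank (ZMod p) (Sel S ρ 𝓛) ≤ finrank (ZMod p) (Sel T ρ (extendConds S T ρ 𝓛)) :=
    LinearMap.finrank_le_finrank_of_injective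
      (f := ((inflMor ρ hST).map₁.comp (Sel S ρ 𝓛).subtype).codRestrict _
        fun x => inflMor_mem_Sel 𝓛 hST x.1 x.2)
      fun a b h => Subtype.ext (inflMor_injective ρ hST (congrArg Subtype.val h :))
  have hB : finrank (ZMod p) (Sel T (dualMu ρ)
      (dualLocal T ρ inv (isCtsRep_levelsS_mono hST hd) (extendConds S T ρ 𝓛))) ≤
      finrank (ZMod p) (Sel S (dualMu ρ) (dualLocal S ρ inv hd 𝓛)) :=
    (Submodule.finrank_mono fun y hy => mem_map_dualSel 𝓛 hST hpS hρ hd hinv y hy).trans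
      (Submodule.finrank_map_le _ _)
  have hS := sum_extendConds_le 𝓛 hST hρ
  linarith

end Fermat.Agent.GalCoh
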