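import Fermat.Agent.CFT.Inputs
import Fermat.Agent.GalCoh.Euler.Main
import Fermat.Agent.GalCoh.GW.Main

/-!
# The Greenberg–Wiles inequality, unconditionally
-/

set_option autoImplicit false

namespace Fermat.Agent.GalCoh

variable (p : ℕ) [Fact p.Prime]

/-- The Euler characteristic formula for `G_{ℚ,S}`, `S` large. -/
theorem eulerFormula : EulerFormula p := eulerFormula_of (CFT.cftInputs p)

/-- The Greenberg–Wiles inequality. -/
theorem greenbergWilesLe : GreenbergWilesLe p :=
  greenbergWilesLe_of (CFT.cftInputs p) (eulerFormula p)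

end Fermat.Agent.GalCoh
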