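import Fermat.Agent.GalCoh.Selmer
import Fermat.Agent.GalCoh.Descent.Inertia
import Mathlib.LinearAlgebra.Dual.Lemmas
import Mathlib.LinearAlgebra.FiniteDimensional.Lemmas

/-!
# The linear algebra of the Greenberg–Wiles inequality

Reciprocity makes the images of global classes orthogonal; counting against the local conditions
gives `dim Sel + dim H¹(V*) ≤ dim Sel* + dim Ш¹(V) + Σ dim L_v`.
-/

set_option autoImplicit false

noncomputable section

set_option maxSynthPendingDepth 5

namespace Fermat.Agent.GalCoh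

open ExtCitation Module

local notation "Γ" => (AlgebraicClosure ℚ ≃ₐ[ℚ] AlgebraicClosure ℚ)

variable {p : ℕ} [Fact p.Prime] {V : Type} [AddCommGroup V] [Module (ZMod p) V]
  (S : Finset Nat.Primes) (ρ : Representation (ZMod p) Γ V)

/-- The classes trivial at every place of `S ∪ {∞}`. -/
def sha1 : Submodule (ZMod p) (H1 (levelsS S) ρ) := Sel S ρ fun _ => ⊥

theorem mem_sha1_iff {x : H1 (levelsS S) ρ} : x ∈ sha1 S ρ ↔ ∀ u, resAt S ρ u x = 0 := by
  simp [sha1, mem_Sel_iff]

open Classical in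
/-- The linear algebra of Greenberg–Wiles. -/
theorem sel_add_finrank_le (hd : IsCtsRep (levelsS S) (dualMu ρ)) {inv : InvFamily p}
    (hinv : inv.IsReciprocal) (hpS : pPrime p ∈ S) (𝓛 : LocalConditions S ρ)
    [∀ u, FiniteDimensional (ZMod p) (𝓛 u)] [FiniteDimensional (ZMod p) (H1 (levelsS S) ρ)]
    [FiniteDimensional (ZMod p) (H1 (levelsS S) (dualMu ρ))] :
    finrank (ZMod p) (Sel S ρ 𝓛) + finrank (ZMod p) (H1 (levelsS S) (dualMu ρ)) ≤
      finrank (ZMod p) (Sel S (dualMu ρ) (dualLocal S ρ inv hd 𝓛)) +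
        finrank (ZMod p) (sha1 S ρ) + ∑ u, finrank (ZMod p) (𝓛 u) := by
  let Q := ∀ u, ↥(𝓛 u)
  have : FiniteDimensional (ZMod p) Q := Module.Finite.pi
  let ψ : H1 (levelsS S) (dualMu ρ) →ₗ[ZMod p] Dual (ZMod p) Q :=
    ∑ u, (LinearMap.proj (R := ZMod p) (φ := fun u => ↥(𝓛 u)) u).dualMap ∘ₗ
      (𝓛 u).subtype.dualMap ∘ₗ (localPairing S ρ inv hd u).flip ∘ₗ resAt S (dualMu ρ) u
  have hψ : ∀ y (x : Q), ψ y x =
      ∑ u, localPairing S ρ inv hd u (x u) (resAt S (dualMu ρ) u y) := fun y x => by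
    simp only [ψ, LinearMap.sum_apply]
    exact Finset.sum_congr rfl fun u _ => rfl
  -- the kernel
  have hker : LinearMap.ker ψ ≤ Sel S (dualMu ρ) (dualLocal S ρ inv hd 𝓛) := fun y hy => by
    refine (mem_Sel_iff _ _ _ _).mpr fun u => (mem_dualLocal_iff S ρ inv hd 𝓛 u _).mpr fun a ha => ?_
    have h := LinearMap.congr_fun (LinearMap.mem_ker.mp hy) (Pi.single u (⟨a, ha⟩ : 𝓛 u) : Q)
    rw [hψ, LinearMap.zero_apply, Finset.sum_eq_single u] at h
    · simpa using h
    · intro u' _ hu'
      rw [Pi.single_eq_of_ne hu', Submodule.coe_zero, map_zero, LinearMap.zero_apply]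
    · exact fun h' => absurd (Finset.mem_univ _) h'
  -- the global classes inside the conditions
  let g : Sel S ρ 𝓛 →ₗ[ZMod p] Q :=
    LinearMap.pi fun u => ((resAt S ρ u).comp (Sel S ρ 𝓛).subtype).codRestrict _
      fun x => (mem_Sel_iff S ρ 𝓛 x.1).mp x.2 u
  have horth : LinearMap.range ψ ≤ (LinearMap.range g).dualAnnihilator := by
    rintro _ ⟨y, rfl⟩
    rw [Submodule.mem_dualAnnihilator]
    rintro _ ⟨x, rfl⟩
    rw [hψ]
    exact sum_localPairing_eq_zero S ρ hinv hpS hd x.1 y
  have hg : finrank (ZMod p) (LinearMap.ker g) ≤ finrank (ZMod p) (sha1 S ρ) := by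
    let e : LinearMap.ker g →ₗ[ZMod p] sha1 S ρ :=
      ((Sel S ρ 𝓛).subtype.comp (LinearMap.ker g).subtype).codRestrict _ fun x =>
        (mem_sha1_iff S ρ).mpr fun u =>
          congrArg (fun q : Q => ((q u : ↥(𝓛 u)) : H1 (localLevels (locAt S u)) (ρ.comp (locAt S u))))
            (LinearMap.mem_ker.mp x.2)
    exact LinearMap.finrank_le_finrank_of_injective (f := e) (by
      rw [← LinearMap.ker_eq_bot, LinearMap.ker_codRestrict, LinearMap.ker_eq_bot]
      exact (Sel S ρ 𝓛).injective_subtype.comp (LinearMap.ker g).injective_subtype)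
  have h1 := LinearMap.finrank_range_add_finrank_ker ψ
  have h2 := Submodule.finrank_mono horth
  have h3 := Subspace.finrank_add_finrank_dualAnnihilator_eq (K := ZMod p) (LinearMap.range g : Submodule (ZMod p) Q)
  have h4 := LinearMap.finrank_range_add_finrank_ker g
  have h5 := Submodule.finrank_mono hker
  have h6 : finrank (ZMod p) Q = ∑ u, finrank (ZMod p) (𝓛 u) := Module.finrank_pi_fintype _
  omega

section Inflation

variable {S} {S' : Finset Nat.Primes} (h : S ⊆ S')

/-- Inflation to a larger set of places. -/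
def inflMor : Mor (levelsS S) (levelsS S') ρ ρ where
  f := MonoidHom.id Γ
  φ := LinearMap.id
  comm _ _ := rfl
  compat := compat_levelsS_mono h

theorem inflMor_injective : Function.Injective (inflMor ρ h).map₁ := by
  rw [injective_iff_map_eq_zero]
  intro z hz
  obtain ⟨c, rfl⟩ := H1mk_surjective z
  rw [Mor.map₁_mk, H1mk_eq_zero_iff] at hz
  exact H1mk_eq_zero_iff.mpr hz

theorem finiteDimensional_H1_of_subset (h : S ⊆ S')
    [FiniteDimensional (ZMod p) (H1 (levelsS S') ρ)] :
    FiniteDimensional (ZMod p) (H1 (levelsS S) ρ) :=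
  Module.Finite.of_injective _ (inflMor_injective ρ h)

end Inflation

end Fermat.Agent.GalCoh
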