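import Fermat.Agent.GalCoh.GW.Top
import Fermat.Agent.GalCoh.Selmer

/-!
# Two-classes of twisted duals on a splitting level

Triviality of the twisted dual on a splitting level, and components of induced two-classes.
-/

set_option autoImplicit false

noncomputable section

namespace Fermat.Agent.GalCoh.GW

open Representation (IntertwiningMap)
open ExtCitation Module MulAction

local notation "Γ" => (AlgebraicClosure ℚ ≃ₐ[ℚ] AlgebraicClosure ℚ)

variable {p : ℕ} [Fact p.Prime] {S : Finset Nat.Primes} {N : Subgroup Γ}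
  {V : Type} [AddCommGroup V] [Module (ZMod p) V] (ρ : Representation (ZMod p) Γ V)

theorem dualMu_eq_one {x : Γ} (hχ : cycloChar p x = 1) (hρ : ρ x⁻¹ = 1) : dualMu ρ x = 1 :=
  LinearMap.ext fun f => LinearMap.ext fun v => by simp [dualMu_apply, hχ, hρ]

theorem trivial_dualMu (hN : IsSplittingLevel p N) (hρ : ∀ x ∈ N, ρ x = 1) :
    ∀ x ∈ N, dualMu ρ x = 1 :=
  fun x hx => dualMu_eq_one ρ (hN.mu x hx) (hρ _ (N.inv_mem hx))

section Induced

variable [FiniteDimensional (ZMod p) V]

variable (hN : IsSplittingLevel p N) (hρ : ∀ x ∈ N, ρ x = 1)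

/-- A component of the untwisted class vanishes with the component of the class. -/
theorem pointMor_res_eq_zero (W1 : H2 (levelsS S) (permRep (muRep p) (Γ ⧸ N)))
    (y : H2 (levelsSOn N S) (muOn p N))
    (hW1 : (evalMor (levelsS S) (muRep p) N).map₂ W1 = y) (u : extArithIndex S) (a : Γ)
    (h0 : compS p S N (toPlace u) a⁻¹ y = 0) :
    letI := pullAction (locAt S u) (Γ ⧸ N)
    (pointMor (localLevels (locAt S u)) ((muRep p).comp (locAt S u)) (a : Γ ⧸ N)).map₂
      ((permRes (levelsS S) (localLevels (locAt S u)) (muRep p) (Γ ⧸ N) (locAt S u)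
        (compat_locAt S u)).map₂ W1) = 0 := by
  let := pullAction (locAt S u) (Γ ⧸ N)
  have e := placeMor_evalMor (p := p) (K := N) (compat_levelsS S) (toPlace u) a⁻¹ W1
  rw [hW1, forgetOn_levelsS] at e
  have this := toStabMor_pointLoc (compat_levelsS S) (toPlace u) a⁻¹ W1
  rw [← e] at this
  rw [show (placeMor p N (toPlace u) a⁻¹).map₂ ((forgetMor p N S).map₂ y) = 0 from h0,
    map_zero] at this
  have e2 : placePoint N a⁻¹ = (a : Γ ⧸ N) := by simp [placePoint]
  rw [← e2]
  exact this.symm

end Induced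

theorem finite_range_sum {X : Type} [Fintype X] {M : Type} [AddCommMonoid M] (g : X → M)
    (a b : X) (hab : a ≠ b) (h : ∀ x, x ≠ a → x ≠ b → g x = 0) : ∑ x, g x = g a + g b := by
  classical
  rw [← Finset.sum_subset (Finset.subset_univ {a, b}) fun x _ hx => by
    simp only [Finset.mem_insert, Finset.mem_singleton, not_or] at hx
    exact h x hx.1 hx.2]
  exact Finset.sum_pair hab

end Fermat.Agent.GalCoh.GW
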