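import Fermat.Agent.GalCoh.GW.Pairing
import Fermat.Agent.GalCoh.RightExact
import Fermat.Agent.GalCoh.Descent.Mu
import Mathlib.LinearAlgebra.Dual.Lemmas
import Mathlib.LinearAlgebra.FiniteDimensional.Lemmas

/-!
# Local invariants against two-classes of the dual

For a space `X` of everywhere locally trivial classes,
`dim X + ∑ h⁰_u(V) ≤ h²(V*) + h⁰(V) + dim (1 + c) V`: the local invariant vectors of the
extension of `X` by `V` pair with the two-classes of its dual, and the classes coming from `μ_p`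
are killed by reciprocity.
-/

set_option autoImplicit false

noncomputable section

set_option maxSynthPendingDepth 5

namespace Fermat.Agent.GalCoh

open ExtCitation Module Descent
open Representation (IntertwiningMap)

local notation "Γ" => (AlgebraicClosure ℚ ≃ₐ[ℚ] AlgebraicClosure ℚ)

variable {p : ℕ} [Fact p.Prime]

/-- Complex conjugation inverts the roots of unity. -/
theorem cycloChar_complexConjugation :
    (cycloChar p complexConjugation : ZMod p) = -1 := by
  refine mu_injective ?_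
  have h1 := apply_mu (p := p) complexConjugation 1
  rw [mul_one] at h1
  rw [← h1, mu_neg]
  refine complexEmbedding.toRingHom.injective ?_
  show complexEmbedding _ = complexEmbedding _
  rw [complexEmbedding_complexConjugation, map_inv₀]
  have hz : ‖complexEmbedding (mu p 1)‖ = 1 :=
    Complex.norm_eq_one_of_pow_eq_one (by rw [← map_pow, mu_pow, map_one]) (Fact.out : p.Prime).ne_zero
  rw [Complex.inv_def, Complex.normSq_eq_norm_sq, hz]
  simp

theorem mem_H0_inl_iff {E : Type} [AddCommGroup E] [Module (ZMod p) E]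
    (ε : Representation (ZMod p) Γ E) (u : Unit) (v : E) :
    v ∈ H0 (ε.comp (placeLoc (Sum.inl u))) ↔ ε complexConjugation v = v := by
  refine ⟨fun h => h (archimedeanGen : placeGroup (Sum.inl u)), fun h d => ?_⟩
  rcases arch_cases u d with rfl | hd
  · simp
  · rw [MonoidHom.comp_apply, hd, h]

variable {V X : Type} [AddCommGroup V] [Module (ZMod p) V] [AddCommGroup X] [Module (ZMod p) X]

/-- The extension of `X` by `V` given by a linear family of cocycles. -/
def extRep (ρ : Representation (ZMod p) Γ V) (s : X →ₗ[ZMod p] (Γ → V))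
    (hs : ∀ x g g', s x (g * g') = s x g + ρ g (s x g')) :
    Representation (ZMod p) Γ (V × X) where
  toFun g := LinearMap.prod
    (ρ g ∘ₗ LinearMap.fst _ _ _ + (LinearMap.proj g ∘ₗ s) ∘ₗ LinearMap.snd _ _ _)
    (LinearMap.snd _ _ _)
  map_one' := by
    refine LinearMap.ext fun m => Prod.ext ?_ rfl
    have h1 : s m.2 1 = 0 := by simpa using hs m.2 1 1
    show ρ 1 m.1 + s m.2 1 = m.1
    rw [h1, map_one, Module.End.one_apply, add_zero]
  map_mul' g g' := by
    refine LinearMap.ext fun m => Prod.ext ?_ rfl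
    show ρ (g * g') m.1 + s m.2 (g * g') = ρ g (ρ g' m.1 + s m.2 g') + s m.2 g
    rw [hs, map_mul, Module.End.mul_apply, map_add]
    abel

theorem extRep_apply (ρ : Representation (ZMod p) Γ V) (s : X →ₗ[ZMod p] (Γ → V))
    (hs : ∀ x g g', s x (g * g') = s x g + ρ g (s x g')) (g : Γ) (m : V × X) :
    extRep ρ s hs g m = (ρ g m.1 + s m.2 g, m.2) := rfl

variable {S : Finset Nat.Primes} {N : Subgroup Γ} (ρ : Representation (ZMod p) Γ V)

/-- Restriction of the dual of the extension. -/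
def extRes (s : X →ₗ[ZMod p] (Γ → V)) (hs : ∀ x g g', s x (g * g') = s x g + ρ g (s x g')) :
    IntertwiningMap (dualMu (extRep ρ s hs)) (dualMu ρ) :=
  LinearMap.intertwiningMap_of_isIntertwiningMap _ _ (LinearMap.inl (ZMod p) V X).dualMap
    fun g f => by
      refine LinearMap.ext fun v => ?_
      show dualMu (extRep ρ s hs) g f (v, 0) = dualMu ρ g (f ∘ₗ LinearMap.inl (ZMod p) V X) v
      rw [dualMu_apply, dualMu_apply, extRep_apply]
      simp

/-- Inflation to the dual of the extension. -/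
def extInf (s : X →ₗ[ZMod p] (Γ → V)) (hs : ∀ x g g', s x (g * g') = s x g + ρ g (s x g')) :
    IntertwiningMap (dualMu (Representation.trivial (ZMod p) Γ X)) (dualMu (extRep ρ s hs)) :=
  LinearMap.intertwiningMap_of_isIntertwiningMap _ _ (LinearMap.snd (ZMod p) V X).dualMap
    fun g φ => by
      refine LinearMap.ext fun m => ?_
      show dualMu (Representation.trivial (ZMod p) Γ X) g φ m.2 =
        dualMu (extRep ρ s hs) g (φ ∘ₗ LinearMap.snd (ZMod p) V X) m
      rw [dualMu_apply, dualMu_apply, extRep_apply]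
      simp

/-- Evaluation at a fixed vector. -/
def evFix {E : Type} [AddCommGroup E] [Module (ZMod p) E] (ε : Representation (ZMod p) Γ E)
    (w : E) (hw : ∀ g, ε g w = w) : IntertwiningMap (dualMu ε) (muRep p) :=
  LinearMap.intertwiningMap_of_isIntertwiningMap _ _ (LinearMap.applyₗ w) fun g f => by
    rw [LinearMap.applyₗ_apply_apply, LinearMap.applyₗ_apply_apply, dualMu_apply, hw, muRep_apply]

/-- The pairings of a global invariant vector add up to zero. -/
theorem sum_evPair_fixed {E : Type} [AddCommGroup E] [Module (ZMod p) E]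
    (ε : Representation (ZMod p) Γ E) {inv : InvFamily p} (hinv : inv.IsReciprocal)
    (hpS : pPrime p ∈ S) (w : E) (hw : ∀ g, ε g w = w)
    (e : ∀ u : extArithIndex S, H0 (ε.comp (locAt S u))) (he : ∀ u, (e u : E) = w)
    (z : H2 (levelsS S) (dualMu ε)) :
    ∑ u, evPair ε S inv (toPlace u) (e u) z = 0 := by
  rw [← hinv.2 S hpS ((Mor.ofMap (levelsS S) (evFix ε w hw)).map₂ z)]
  refine Finset.sum_congr rfl fun u _ => ?_
  rw [evPair_apply, Mor.map₂_map₂]
  refine congrArg _ (Mor.map₂_congr ?_ ?_ z)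
  · rfl
  refine LinearMap.ext fun f => ?_
  show f (e u : E) = f w
  rw [he u]

variable {ρ}

/-- A class of the dual seen at infinity. -/
theorem exists_arch_class (hp : p = 2) (h : VeryLarge p S N) (hC : CFTInputs p) {E : Type}
    [AddCommGroup E] [Module (ZMod p) E] (ε : Representation (ZMod p) Γ E)
    (hεN : ∀ n ∈ N, ε n = 1) {inv : InvFamily p} (hinv : inv.IsReciprocal) (f : Dual (ZMod p) E)
    (hf : ∀ v, f (ε complexConjugation v + v) = 0) (u : Unit)
    (e : H0 (ε.comp (placeLoc (Sum.inl u)))) (he : f e ≠ 0) :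
    ∃ z : H2 (levelsS S) (dualMu ε), evPair ε S inv (Sum.inl u) e z ≠ 0 := by
  let σ := (dualMu ε).comp (⊤ : Subgroup Γ).subtype
  have hσ : TrivialOn ⊤ σ N := fun x hx => by
    refine LinearMap.ext fun g => LinearMap.ext fun w => ?_
    show dualMu ε (x : Γ) g w = g w
    rw [dualMu_apply, h.large.split_level.mu _ hx, hεN _ (N.inv_mem hx)]
    simp
  have hfix : σ (realInv 1 (Subgroup.mem_top _)) f = f := by
    refine LinearMap.ext fun w => ?_
    show dualMu ε (conjC 1) f w = f w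
    rw [show conjC 1 = complexConjugation by rw [conjC, inv_one, one_mul, mul_one], dualMu_apply, cycloChar_complexConjugation,
      complexConjugation_inv]
    have := hf w
    rw [map_add] at this
    linear_combination -this
  obtain ⟨z', hz', -⟩ := exists_point_realComp σ h hC hp le_top hσ 1 (Subgroup.mem_top _) f hfix
  let T : Mor (levelsSOn ⊤ S) (levelsS S) σ (dualMu ε) :=
    { f := (Subgroup.topEquiv : (⊤ : Subgroup Γ) ≃* Γ).symm.toMonoidHom
      φ := LinearMap.id
      comm := fun _ _ => rfl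
      compat := fun U ⟨U₀, hU₀, hU⟩ => (levelsS S).mono hU₀ fun g hg => hU hg }
  refine ⟨T.map₂ z', fun h0 => he ?_⟩
  have h1 := (injective_iff_map_eq_zero _).mp (hinv.1 _) _ h0
  rw [Mor.map₂_map₂] at h1
  let d : placeGroup (Sum.inl u) := archimedeanGen
  have hd : d * d = 1 := Subtype.ext complexConjugation_mul_self
  have hMd : (T.comp (evLoc ε S (Sum.inl u) e)).f d = realInv 1 (Subgroup.mem_top _) :=
    Subtype.ext (show complexConjugation = 1 * complexConjugation * 1⁻¹ by
      rw [inv_one, one_mul, mul_one])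
  have h2 := realComp_map₂ (T.comp (evLoc ε S (Sum.inl u) e)) (realInv_mul_self 1 _) hd hMd z'
  rw [h1, map_zero, hz', tateMap_mk] at h2
  obtain ⟨w, hw⟩ := tateMk_eq_zero_iff.mp h2.symm
  have hw' : (muRep p complexConjugation) w + w = f (e : E) := hw
  rw [← hw', muRep_apply, cycloChar_complexConjugation]
  ring

/-- **The lower bound for `h²` of the dual.** -/
theorem finrank_add_sum_h0_le [FiniteDimensional (ZMod p) V] [FiniteDimensional (ZMod p) X]
    (h : VeryLarge p S N) (hC : CFTInputs p) {inv : InvFamily p} (hinv : inv.IsReciprocal)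
    (htwo : ∀ r : Nat.Primes, ∃ q ∈ S, q ≠ r) (hρN : ∀ n ∈ N, ρ n = 1)
    (s : X →ₗ[ZMod p] (Γ → V)) (hs : ∀ x g g', s x (g * g') = s x g + ρ g (s x g'))
    (hsN : ∀ x, ∀ n ∈ N, s x n = 0)
    (hloc : ∀ (u : extArithIndex S) x, ∃ v, ∀ d, s x (locAt S u d) = ρ (locAt S u d) v - v)
    (hinj : ∀ x v, (∀ g, s x g = ρ g v - v) → x = 0)
    [FiniteDimensional (ZMod p) (H2 (levelsS S) (dualMu ρ))] :
    finrank (ZMod p) X + ∑ u, finrank (ZMod p) (H0 (ρ.comp (locAt S u))) ≤
      finrank (ZMod p) (H2 (levelsS S) (dualMu ρ)) + finrank (ZMod p) (H0 ρ) +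
        finrank (ZMod p) (LinearMap.range (ρ complexConjugation + 1)) := by
  classical
  obtain ⟨q₀, hq₀S, hq₀⟩ := h.large.split
  have : Finite (Γ ⧸ N) := finite_quotient h.large.level
  let : Fintype (Γ ⧸ N) := Fintype.ofFinite _
  have hN := h.large.split_level
  let ε := extRep ρ s hs
  have hεN : ∀ n ∈ N, ε n = 1 := fun n hn => LinearMap.ext fun m => by
    rw [extRep_apply, hρN n hn, hsN _ n hn]
    simp
  -- local splittings
  have ht : ∀ u : extArithIndex S, ∃ t : X →ₗ[ZMod p] V,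
      ∀ x d, s x (locAt S u d) = ρ (locAt S u d) (t x) - t x := fun u => by
    let D := d0 (ρ.comp (locAt S u))
    obtain ⟨g, hg⟩ := D.rangeRestrict.exists_rightInverse_of_surjective D.range_rangeRestrict
    let B : X →ₗ[ZMod p] LinearMap.range D :=
      (LinearMap.funLeft (ZMod p) V (locAt S u) ∘ₗ s).codRestrict _ fun x => by
        obtain ⟨v, hv⟩ := hloc u x
        exact ⟨v, funext fun d => (hv d).symm⟩
    refine ⟨g ∘ₗ B, fun x d => ?_⟩
    have h1 := congrFun (congrArg Subtype.val (LinearMap.congr_fun hg (B x))) d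
    exact h1.symm
  choose t ht using ht
  have hmem : ∀ (u : extArithIndex S) (w : (∀ u : extArithIndex S, H0 (ρ.comp (locAt S u))) × X),
      ((w.1 u : V) - t u w.2, w.2) ∈ H0 (ε.comp (locAt S u)) := fun u w d => by
    show ε (locAt S u d) _ = _
    have h1 : ρ (locAt S u d) (w.1 u : V) = w.1 u := (w.1 u).2 d
    rw [extRep_apply]
    show (ρ (locAt S u d) ((w.1 u : V) - t u w.2) + s w.2 (locAt S u d), w.2) = _
    rw [map_sub, h1, ht]
    congr 1
    abel
  let e : (∀ u : extArithIndex S, H0 (ρ.comp (locAt S u))) × X →ₗ[ZMod p] ∀ u : extArithIndex S, H0 (ε.comp (locAt S u)) :=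
    { toFun := fun w u => ⟨_, hmem u w⟩
      map_add' := fun a b => funext fun u => Subtype.ext (Prod.ext (by
        show ((a.1 u + b.1 u : H0 (ρ.comp (locAt S u))) : V) - t u (a.2 + b.2) =
          ((a.1 u : V) - t u a.2) + ((b.1 u : V) - t u b.2)
        rw [map_add, Submodule.coe_add]; abel) rfl)
      map_smul' := fun c a => funext fun u => Subtype.ext (Prod.ext (by simp [smul_sub]) rfl) }
  let Δ : (∀ u : extArithIndex S, H0 (ρ.comp (locAt S u))) × X →ₗ[ZMod p] Dual (ZMod p) (H2 (levelsS S) (dualMu ε)) :=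
    (∑ u, evPair ε S inv (toPlace u) ∘ₗ LinearMap.proj u) ∘ₗ e
  have hΔ : ∀ w z, Δ w z = ∑ u, evPair ε S inv (toPlace u) (e w u) z := fun w z => by
    simp [Δ, LinearMap.sum_apply]
  -- the classes from `μ_p` are killed
  obtain ⟨Q, hQi, hQj⟩ := exists_ses (extInf ρ s hs) (extRes ρ s hs)
    (fun φ φ' e => LinearMap.ext fun x => by
      have := LinearMap.congr_fun e ((0 : V), x)
      exact this)
    (fun f => ⟨f ∘ₗ LinearMap.fst (ZMod p) V X, LinearMap.ext fun v => rfl⟩)
    (fun f => ⟨fun hf => ⟨f ∘ₗ LinearMap.inr (ZMod p) V X, LinearMap.ext fun m => by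
      have h0 : f (m.1, 0) = 0 := LinearMap.congr_fun hf m.1
      show f (0, m.2) = f m
      conv_rhs => rw [show m = (m.1, 0) + (0, m.2) by simp, map_add, h0, zero_add]⟩,
      fun ⟨φ, hφ⟩ => hφ ▸ LinearMap.ext fun v => φ.map_zero⟩)
  have hεd : IsCtsRep (levelsS S) (dualMu ε) :=
    isCtsRep_dualMu ⟨N, h.large.level, hεN⟩ ⟨N, h.large.level, hN.mu⟩
  let J := (Mor.ofMap (levelsS S) (extRes ρ s hs)).map₂
  have hrange : LinearMap.range Δ ≤ (LinearMap.ker J).dualAnnihilator := by
    rintro _ ⟨w, rfl⟩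
    rw [Submodule.mem_dualAnnihilator]
    intro z hz
    have hz' : z ∈ LinearMap.ker (Q.mj (levelsS S)).map₂ := by
      rw [show (Q.mj (levelsS S)) = Mor.ofMap (levelsS S) (extRes ρ s hs) by rw [← hQj]]
      exact hz
    rw [Q.ker_map₂_j hεd] at hz'
    obtain ⟨y, rfl⟩ := hz'
    rw [hΔ, ← hinv.2 S h.large.p_mem ((Mor.ofMap (levelsS S) (evFix
      (Representation.trivial (ZMod p) Γ X) w.2 fun _ => rfl)).map₂ y)]
    refine Finset.sum_congr rfl fun u _ => ?_
    rw [evPair_apply]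
    refine congrArg _ (Mor.map₂_square _ _ _ _ ?_ ?_ y)
    · rfl
    · refine LinearMap.ext fun φ => ?_
      show (Q.i φ) ((w.1 u : V) - t u w.2, w.2) = φ w.2
      rw [hQi]
      rfl
  have hrank : finrank (ZMod p) (LinearMap.range Δ) ≤
      finrank (ZMod p) (H2 (levelsS S) (dualMu ρ)) := by
    rw [← LinearMap.range_dualMap_eq_dualAnnihilator_ker] at hrange
    refine (Submodule.finrank_mono hrange).trans (J.dualMap.finrank_range_le.trans ?_)
    rw [Subspace.dual_finrank_eq]
  -- the kernel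
  have hker : ∀ w ∈ LinearMap.ker Δ, w.2 = 0 ∧
      (∀ g, ρ g (w.1 (Sum.inr ⟨q₀, hq₀S⟩) : V) = w.1 (Sum.inr ⟨q₀, hq₀S⟩)) ∧
      (∀ q : {q // q ∈ S}, (w.1 (Sum.inr q) : V) = w.1 (Sum.inr ⟨q₀, hq₀S⟩)) ∧
      ∀ u : Unit, (w.1 (Sum.inl u) : V) - w.1 (Sum.inr ⟨q₀, hq₀S⟩) ∈
        LinearMap.range (ρ complexConjugation + 1) := by
    intro w hw
    have hzero : ∀ z, ∑ u, evPair ε S inv (toPlace u) (e w u) z = 0 := fun z => by
      rw [← hΔ, LinearMap.mem_ker.mp hw]
      rfl
    have hcomp : ∀ (q : {q // q ∈ S}), (q : Nat.Primes) ≠ q₀ → ∀ g₁,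
        ε g₁ (e w (Sum.inr q) : V × X) = e w (Sum.inr ⟨q₀, hq₀S⟩) := fun q hq g₁ => by
      obtain ⟨z, A, hA, hz⟩ :=
        exists_testClass (ε := ε) h.large hC hinv hq₀S q.2 hq hq₀ g₁ hεN
      rw [eq_comm, ← sub_eq_zero]
      refine (Module.forall_dual_apply_eq_zero_iff (ZMod p) _).mp fun f => ?_
      have h2 := (hz f (e w)).symm.trans (hzero (z f))
      rw [map_sub]
      exact (mul_eq_zero.mp h2).resolve_left hA
    obtain ⟨r, hrS, hr⟩ := htwo q₀
    have hfix : ∀ g, ε g (e w (Sum.inr ⟨q₀, hq₀S⟩) : V × X) = e w (Sum.inr ⟨q₀, hq₀S⟩) :=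
      fun g => by
        conv_lhs => rw [← hcomp ⟨r, hrS⟩ hr 1, map_one, Module.End.one_apply]
        exact hcomp ⟨r, hrS⟩ hr g
    have hx : w.2 = 0 := hinj w.2
        (-((w.1 (Sum.inr ⟨q₀, hq₀S⟩) : V) - t (Sum.inr ⟨q₀, hq₀S⟩) w.2)) fun g => by
      have h1 := congrArg Prod.fst (hfix g)
      change ρ g ((w.1 (Sum.inr ⟨q₀, hq₀S⟩) : V) - t (Sum.inr ⟨q₀, hq₀S⟩) w.2) + s w.2 g =
        (w.1 (Sum.inr ⟨q₀, hq₀S⟩) : V) - t (Sum.inr ⟨q₀, hq₀S⟩) w.2 at h1
      rw [eq_sub_of_add_eq' h1, map_neg]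
      abel
    have he : ∀ u, (e w u : V × X) = ((w.1 u : V), 0) := fun u => by
      show ((w.1 u : V) - t u w.2, w.2) = _
      rw [hx, map_zero, sub_zero]
    have hρfix : ∀ g, ρ g (w.1 (Sum.inr ⟨q₀, hq₀S⟩) : V) = w.1 (Sum.inr ⟨q₀, hq₀S⟩) := fun g => by
      have h1 := congrArg Prod.fst
        ((congrArg (ε g) (he (Sum.inr ⟨q₀, hq₀S⟩))).symm.trans ((hfix g).trans (he _)))
      change ρ g (w.1 (Sum.inr ⟨q₀, hq₀S⟩) : V) + s 0 g = _ at h1
      rwa [map_zero, Pi.zero_apply, add_zero] at h1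
    have heq : ∀ q : {q // q ∈ S}, (w.1 (Sum.inr q) : V) = w.1 (Sum.inr ⟨q₀, hq₀S⟩) := fun q => by
      by_cases hq : (q : Nat.Primes) = q₀
      · obtain ⟨q, hqS⟩ := q
        obtain rfl : q = q₀ := hq
        rfl
      · have h2 := hcomp q hq 1
        rw [map_one, Module.End.one_apply] at h2
        exact congrArg Prod.fst ((he (Sum.inr q)).symm.trans (h2.trans (he _)))
    refine ⟨hx, hρfix, heq, fun u => ?_⟩
    set a := (w.1 (Sum.inl u) : V) - w.1 (Sum.inr ⟨q₀, hq₀S⟩) with ha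
    have hafix : ρ complexConjugation a = a := by
      rw [ha, map_sub, (mem_H0_inl_iff ρ u _).mp (w.1 (Sum.inl u)).2, hρfix]
    by_cases hp : p = 2
    swap
    · have h2 : IsUnit (2 : ZMod p) := by
        refine (ne_of_apply_ne (ZMod.val) ?_).isUnit
        have h2 : 2 < p := lt_of_le_of_ne (Fact.out : p.Prime).two_le (Ne.symm hp)
        rw [ZMod.val_zero, show ((2 : ZMod p)) = ((2 : ℕ) : ZMod p) by norm_num,
          ZMod.val_natCast_of_lt h2]
        norm_num
      obtain ⟨b, hb⟩ := tateMk_eq_zero_iff.mp (tateMk_eq_zero_of_isUnit h2 hafix)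
      exact ⟨b, hb⟩
    by_contra hna
    obtain ⟨g, hga, hg⟩ := Submodule.exists_dual_map_eq_bot_of_notMem hna inferInstance
    have hg' : ∀ b, g (ρ complexConjugation b + b) = 0 := fun b =>
      LinearMap.mem_ker.mp (LinearMap.le_ker_iff_map.mpr hg ⟨b, rfl⟩)
    obtain ⟨T, hT⟩ : ∃ T : X →ₗ[ZMod p] V,
        ∀ x, s x complexConjugation = ρ complexConjugation (T x) - T x :=
      ⟨t (Sum.inl u), fun x => ht (Sum.inl u) x archimedeanGen⟩
    let f : Dual (ZMod p) (V × X) := g ∘ₗ (LinearMap.fst (ZMod p) V X +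
      T ∘ₗ LinearMap.snd (ZMod p) V X)
    have hf : ∀ m, f (ε complexConjugation m + m) = 0 := fun m => by
      show g ((ρ complexConjugation m.1 + s m.2 complexConjugation + m.1) + T (m.2 + m.2)) = 0
      rw [hT, map_add T, ← hg' (m.1 + T m.2), map_add (ρ _)]
      congr 1
      abel
    have hm : ((a, 0) : V × X) ∈ H0 (ε.comp (placeLoc (Sum.inl u))) :=
      (mem_H0_inl_iff ε u _).mpr (by rw [extRep_apply, hafix]; simp)
    obtain ⟨z, hz⟩ := exists_arch_class hp h hC ε hεN hinv f hf u ⟨_, hm⟩ (by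
      show g (a + T 0) ≠ 0
      rwa [map_zero, add_zero])
    have hcm : ∀ u' : extArithIndex S, (((w.1 (Sum.inr ⟨q₀, hq₀S⟩) : V), 0) : V × X) ∈
        H0 (ε.comp (locAt S u')) := fun u' d => by
      show ε (locAt S u' d) _ = _
      rw [extRep_apply]
      show (ρ _ _ + s 0 _, (0 : X)) = _
      rw [hρfix, map_zero, Pi.zero_apply, add_zero]
    have hsum := sum_evPair_fixed ε hinv h.large.p_mem
      (((w.1 (Sum.inr ⟨q₀, hq₀S⟩) : V), 0) : V × X) (fun g' => by
        rw [extRep_apply]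
        show (ρ _ _ + s 0 _, (0 : X)) = _
        rw [hρfix, map_zero, Pi.zero_apply, add_zero])
      (fun u' => ⟨_, hcm u'⟩) (fun _ => rfl) z
    refine hz ?_
    have hdiff : ∑ u', (evPair ε S inv (toPlace u') (e w u') z -
        evPair ε S inv (toPlace u') ⟨_, hcm u'⟩ z) = 0 := by
      rw [Finset.sum_sub_distrib, hzero, hsum, sub_zero]
    refine Eq.trans ?_ ((Finset.sum_eq_single (Sum.inl u : extArithIndex S) (fun u' _ hu' => ?_)
      fun h' => absurd (Finset.mem_univ _) h').symm.trans hdiff)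
    · rw [← LinearMap.sub_apply, ← map_sub]
      refine LinearMap.congr_fun (congrArg _ (Subtype.ext ?_)) z
      show (a, (0 : X)) = (e w (Sum.inl u) : V × X) - ((w.1 (Sum.inr ⟨q₀, hq₀S⟩) : V), 0)
      refine Eq.trans ?_ (congrArg (· - _) (he (Sum.inl u)).symm)
      simp [ha]
    · rcases u' with u' | q
      · exact absurd rfl hu'
      · rw [← LinearMap.sub_apply, ← map_sub]
        have h0 : e w (Sum.inr q) - ⟨_, hcm (Sum.inr q)⟩ = 0 := Subtype.ext (by
          show (e w (Sum.inr q) : V × X) - ((w.1 (Sum.inr ⟨q₀, hq₀S⟩) : V), 0) = 0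
          exact sub_eq_zero.mpr ((he (Sum.inr q)).trans (Prod.ext (heq q) rfl)))
        rw [h0, map_zero, LinearMap.zero_apply]
  let κ : LinearMap.ker Δ →ₗ[ZMod p] H0 ρ × LinearMap.range (ρ complexConjugation + 1) :=
    { toFun := fun w => (⟨_, (hker w.1 w.2).2.1⟩, ⟨_, (hker w.1 w.2).2.2.2 ()⟩)
      map_add' := fun a b => Prod.ext (Subtype.ext rfl) (Subtype.ext (by
        show ((a.1.1 (Sum.inl ()) + b.1.1 (Sum.inl ()) : H0 (ρ.comp (locAt S (Sum.inl ())))) : V) -
            ((a.1.1 (Sum.inr ⟨q₀, hq₀S⟩) + b.1.1 (Sum.inr ⟨q₀, hq₀S⟩) :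
              H0 (ρ.comp (locAt S (Sum.inr ⟨q₀, hq₀S⟩)))) : V) =
          ((a.1.1 (Sum.inl ()) : V) - a.1.1 (Sum.inr ⟨q₀, hq₀S⟩)) +
            ((b.1.1 (Sum.inl ()) : V) - b.1.1 (Sum.inr ⟨q₀, hq₀S⟩))
        rw [Submodule.coe_add, Submodule.coe_add]; abel))
      map_smul' := fun c a => Prod.ext (Subtype.ext rfl) (Subtype.ext (smul_sub c _ _).symm) }
  have hκ : Function.Injective κ := by
    refine LinearMap.ker_eq_bot.mp ((Submodule.eq_bot_iff _).mpr fun w hw => ?_)
    obtain ⟨hx, -, hq, -⟩ := hker w.1 w.2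
    have h0 : (w.1.1 (Sum.inr ⟨q₀, hq₀S⟩) : V) = 0 :=
      congrArg Subtype.val (congrArg Prod.fst (LinearMap.mem_ker.mp hw))
    have h1 : (w.1.1 (Sum.inl ()) : V) - w.1.1 (Sum.inr ⟨q₀, hq₀S⟩) = 0 :=
      congrArg Subtype.val (congrArg Prod.snd (LinearMap.mem_ker.mp hw))
    refine Subtype.ext (Prod.ext (funext fun u => Subtype.ext ?_) hx)
    rcases u with u | q
    · rw [h0, sub_zero] at h1
      exact h1
    · exact (hq q).trans h0
  have h1 := LinearMap.finrank_range_add_finrank_ker Δ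
  have h2 := LinearMap.finrank_le_finrank_of_injective hκ
  rw [Module.finrank_prod] at h2
  have h3 : finrank (ZMod p) ((∀ u : extArithIndex S, H0 (ρ.comp (locAt S u))) × X) =
      (∑ u, finrank (ZMod p) (H0 (ρ.comp (locAt S u)))) + finrank (ZMod p) X := by
    rw [Module.finrank_prod, Module.finrank_pi_fintype]
  linarith

end Fermat.Agent.GalCoh
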