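import Fermat.Agent.GalCoh.Selmer
import Fermat.Agent.GalCoh.EulerDefs
import Fermat.Agent.GalCoh.Signs
import Fermat.Agent.GalCoh.Lifting
import Fermat.Agent.GalCoh.Descent.LocalImage
import Fermat.Agent.Chebotarev.Main
import Fermat.Agent.FreyReducible.InertiaLift

/-!
# Everywhere locally trivial classes vanish on the splitting level, for large sets of places

Restricted to the splitting level they are homomorphisms unramified outside a fixed set of
places; Chebotarev gives a finite set of primes detecting all of them.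
-/

set_option autoImplicit false

noncomputable section

set_option maxSynthPendingDepth 5

open scoped Pointwise

namespace Fermat.Agent.GalCoh

open ExtCitation Module

local notation "Ω" => AlgebraicClosure ℚ
local notation "Γ" => (AlgebraicClosure ℚ ≃ₐ[ℚ] AlgebraicClosure ℚ)

/-- An open subgroup containing the inertia groups outside `S` is an `S`-level. -/
theorem levelsS_mem_of_inertia_le {S : Finset Nat.Primes} {U : Subgroup Γ}
    (hU : fullLevels.mem U)
    (h : ∀ q : Nat.Primes, q ∉ S → ∀ A : ValuationSubring Ω, A.LiesOverPrime (q : ℕ) →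
      A.inertiaSubgroupIn ℚ ≤ U) : (levelsS S).mem U :=
  ⟨IntermediateField.fixedField U, ⟨(fixingSubgroup_fixedField_of_mem hU).2, fun q hq A hA => by
    rw [(fixingSubgroup_fixedField_of_mem hU).1]; exact h q hq A hA⟩,
    (fixingSubgroup_fixedField_of_mem hU).1.le⟩

/-- The inertia groups outside `S` lie in an `S`-level. -/
theorem inertia_le_of_levelsS {S : Finset Nat.Primes} {U : Subgroup Γ} (hU : (levelsS S).mem U)
    {q : Nat.Primes} (hq : q ∉ S) {A : ValuationSubring Ω} (hA : A.LiesOverPrime (q : ℕ)) :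
    A.inertiaSubgroupIn ℚ ≤ U := by
  obtain ⟨F, hF, hFU⟩ := hU
  exact (hF.2 q hq A hA).trans hFU

/-- An element of a decomposition group over `q` is a conjugate of a local one. -/
theorem exists_conj_placeLoc (q : Nat.Primes) {A : ValuationSubring Ω}
    (hA : A.LiesOverPrime (q : ℕ)) {τ : Γ} (hτ : τ ∈ A.decompositionSubgroup ℚ) :
    ∃ (g : Γ) (d : placeGroup (Sum.inr q)), τ = g * placeLoc (Sum.inr q) d * g⁻¹ := by
  obtain ⟨g, rfl⟩ := Frobenius.exists_smul_eq_of_liesOverPrime_qbar q.2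
    (Descent.primeLocalPlace_liesOver q) hA
  obtain ⟨d, hd⟩ := Descent.exists_conjLoc_eq q g hτ
  exact ⟨g, d, hd.symm⟩

variable {p : ℕ} [Fact p.Prime]

set_option linter.unusedVariables false

/-- A cocycle that is locally a coboundary kills a conjugate of the local group, inside a normal
subgroup acting trivially. -/
theorem cocycle_eq_zero_of_local {V : Type} [AddCommGroup V] [Module (ZMod p) V]
    {ρ : Representation (ZMod p) Γ V} {N : Subgroup Γ} (hN : N.Normal) (hρN : ∀ n ∈ N, ρ n = 1)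
    {c : Γ → V} (hc : ∀ g g', c (g * g') = c g + ρ g (c g')) {v : Place}
    (hv : ∃ w, ∀ d, c (placeLoc v d) = ρ (placeLoc v d) w - w) (g : Γ) (d : placeGroup v)
    (h : g * placeLoc v d * g⁻¹ ∈ N) : c (g * placeLoc v d * g⁻¹) = 0 := by
  obtain ⟨w, hw⟩ := hv
  have hd : placeLoc v d ∈ N := by
    simpa [mul_assoc] using hN.conj_mem _ h g⁻¹
  have hcd : c (placeLoc v d) = 0 := by
    rw [hw, hρN _ hd, Module.End.one_apply, sub_self]
  have hc1 : c 1 = 0 := by simpa using hc 1 1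
  have h1 := hc g g⁻¹
  rw [mul_inv_cancel, hc1] at h1
  rw [hc, hc, hcd, map_zero, add_zero, map_mul, hρN _ hd, mul_one]
  exact h1.symm

/-- The kernel on `N` of a cocycle. -/
def cocycleKer {V : Type} [AddCommGroup V] [Module (ZMod p) V]
    (ρ : Representation (ZMod p) Γ V) (N : Subgroup Γ) (hρN : ∀ n ∈ N, ρ n = 1) (c : Γ → V)
    (hc : ∀ g g', c (g * g') = c g + ρ g (c g')) : Subgroup Γ where
  carrier := {g | g ∈ N ∧ c g = 0}
  one_mem' := ⟨N.one_mem, by simpa using hc 1 1⟩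
  mul_mem' := fun {a b} ha hb => ⟨N.mul_mem ha.1 hb.1, by
    rw [hc, ha.2, hb.2, map_zero, add_zero]⟩
  inv_mem' := fun {a} ha => ⟨N.inv_mem ha.1, by
    have h := hc a⁻¹ a
    rw [inv_mul_cancel, ha.2, map_zero, add_zero] at h
    rw [← h]
    simpa using hc 1 1⟩

/-- **Everywhere locally trivial classes vanish on `N`**, for large sets of places. -/
theorem exists_vanishing_set (hE : EulerFormula p) {N : Subgroup Γ} (hN : IsSplittingLevel p N)
    (V : Type) [AddCommGroup V] [Module (ZMod p) V] [FiniteDimensional (ZMod p) V] :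
    ∃ S₁ : Finset Nat.Primes, ∀ S, S₁ ⊆ S → ∀ ρ : Representation (ZMod p) Γ V,
      (∀ n ∈ N, ρ n = 1) → ∀ c ∈ Z1 (levelsS S) ρ,
        (∀ u : extArithIndex S, ∃ w, ∀ d, c (locAt S u d) = ρ (locAt S u d) w - w) →
        ∀ n ∈ N, c n = 0 := by
  classical
  obtain ⟨S₀, hS₀⟩ := Descent.exists_levelsS_mem hN.mem
  obtain ⟨SE, hSE⟩ := hE N hN
  let Sa := S₀ ∪ SE
  have hNa : (levelsS Sa).mem N := by
    simpa using compat_levelsS_mono (Finset.subset_union_left (s₁ := S₀) (s₂ := SE)) hS₀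
  let τN : Representation (ZMod p) ↥N V := Representation.trivial (ZMod p) ↥N V
  obtain ⟨⟨hfin, -⟩, -⟩ := hSE Sa Finset.subset_union_right N le_rfl V τN fun _ _ => rfl
  have : Finite (H1 (levelsSOn N Sa) τN) := Module.finite_of_finite (ZMod p)
  let : Fintype (H1 (levelsSOn N Sa) τN) := Fintype.ofFinite _
  -- a prime for each class
  have hprime : ∀ x : H1 (levelsSOn N Sa) τN, ∃ q : Nat.Primes, x ≠ 0 →
      ∀ z : ↥(Z1 (levelsSOn N Sa) τN), H1mk (levelsSOn N Sa) τN z = x →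
        ∃ (g : Γ) (d : placeGroup (Sum.inr q)) (h : g * placeLoc (Sum.inr q) d * g⁻¹ ∈ N),
          z.1 ⟨_, h⟩ ≠ 0 := by
    intro x
    obtain ⟨z, rfl⟩ := H1mk_surjective x
    by_cases hz : H1mk (levelsSOn N Sa) τN z = 0
    · exact ⟨pPrime p, fun h => absurd hz h⟩
    obtain ⟨σ, hσ⟩ : ∃ σ : ↥N, z.1 σ ≠ 0 := by
      by_contra h
      simp only [not_exists, not_not] at h
      exact hz (by rw [show z = 0 from Subtype.ext (funext h), map_zero])
    obtain ⟨hzc, U, ⟨U₀, hU₀, hU₀U⟩, hzU⟩ := mem_Z1_iff.mp z.2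
    have hU₀f : fullLevels.mem U₀ := by simpa using compat_levelsS Sa hU₀
    obtain ⟨M, ⟨L, hL, hLM⟩, hMn, hM⟩ :=
      fullLevels.exists_normal (fullLevels.inf_mem hU₀f hN.mem)
    obtain ⟨ℓ, hℓ, -, A, hA, φ, hφ, hφσ⟩ := Chebotarev.exists_isFrobeniusAt_eqOn L (σ : Γ) ∅
    have hm : (σ : Γ)⁻¹ * φ ∈ M := hLM ((IntermediateField.mem_fixingSubgroup_iff _ _).mpr
      fun a ha => by
        rw [AlgEquiv.mul_apply, hφσ a ha, ← AlgEquiv.mul_apply, inv_mul_cancel, AlgEquiv.one_apply])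
    have hφN : φ ∈ N := by
      have := N.mul_mem σ.2 (hM hm).2
      rwa [mul_inv_cancel_left] at this
    obtain ⟨g, d, hgd⟩ := exists_conj_placeLoc ⟨ℓ, hℓ⟩ hA hφ.choose
    refine ⟨⟨ℓ, hℓ⟩, fun _ z' hz' => ⟨g, d, hgd ▸ hφN, ?_⟩⟩
    obtain rfl : z' = z := by
      obtain ⟨w, hw⟩ := mem_B1_iff.mp (H1mk_eq_iff.mp hz')
      refine Subtype.ext (funext fun n => ?_)
      have := hw n
      rw [show τN n w = w from rfl, sub_self, Pi.sub_apply, sub_eq_zero] at this
      exact this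
    have e : (⟨_, hgd ▸ hφN⟩ : ↥N) = σ * ⟨(σ : Γ)⁻¹ * φ, (hM hm).2⟩ :=
      Subtype.ext (hgd.symm.trans (mul_inv_cancel_left _ _).symm)
    rw [e, hzU σ _ (hU₀U (hM hm).1)]
    exact hσ
  choose q hq using hprime
  refine ⟨Sa ∪ Finset.univ.image q, fun S hS ρ hρN c hcZ hloc => ?_⟩
  obtain ⟨hcoc, hcts⟩ := mem_Z1_iff.mp hcZ
  have hc : ∀ g g', c (g * g') = c g + ρ g (c g') := fun g g' => by rw [hcoc, add_comm]
  have hc1 : c 1 = 0 := Z1.map_one hcZ
  obtain ⟨U, hUS, hcU⟩ := hcts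
  -- the restriction to `N` is unramified outside `Sa`
  have hker : (levelsS Sa).mem (cocycleKer ρ N hρN c hc) := by
    refine levelsS_mem_of_inertia_le (fullLevels.mono
      (fullLevels.inf_mem (show fullLevels.mem U by simpa using compat_levelsS S hUS) hN.mem)
      fun g hg => ⟨hg.2, by simpa [hc1] using hcU 1 g hg.1⟩) fun r hr A hA τ hτ => ?_
    have hτN := inertia_le_of_levelsS hNa hr hA hτ
    refine ⟨hτN, ?_⟩
    by_cases hrS : r ∈ S
    · obtain ⟨g, d, rfl⟩ := exists_conj_placeLoc r hA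
        ((FreyReducible.mem_inertiaSubgroupIn_iff A τ).mp hτ).1
      exact cocycle_eq_zero_of_local hN.normal hρN hc (hloc (Sum.inr ⟨r, hrS⟩)) g d hτN
    · have := hcU 1 τ (inertia_le_of_levelsS hUS hrS hA hτ)
      rwa [one_mul, hc1] at this
  have hzmem : (fun n : ↥N => c n) ∈ Z1 (levelsSOn N Sa) τN := by
    refine mem_Z1_iff.mpr ⟨fun a b => ?_,
      (cocycleKer ρ N hρN c hc).comap N.subtype, ⟨_, hker, le_rfl⟩, fun a b hb => ?_⟩
    · show c ((a : Γ) * b) = τN a (c b) + c a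
      rw [hc, hρN _ a.2, Module.End.one_apply, add_comm]
      rfl
    · show c ((a : Γ) * b) = c a
      rw [hc, show c (b : Γ) = 0 from hb.2, map_zero, add_zero]
  intro n hn
  by_cases hz : H1mk (levelsSOn N Sa) τN ⟨_, hzmem⟩ = 0
  · obtain ⟨w, hw⟩ := mem_B1_iff.mp (H1mk_eq_zero_iff.mp hz)
    have := hw ⟨n, hn⟩
    simpa [τN] using this
  · obtain ⟨g, d, h, hne⟩ := hq _ hz ⟨_, hzmem⟩ rfl
    have hqS : q (H1mk (levelsSOn N Sa) τN ⟨_, hzmem⟩) ∈ S :=
      hS (Finset.mem_union_right _ (Finset.mem_image_of_mem q (Finset.mem_univ _)))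
    exact absurd (cocycle_eq_zero_of_local hN.normal hρN hc (hloc (Sum.inr ⟨_, hqS⟩)) g d h) hne

end Fermat.Agent.GalCoh
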