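import Fermat.Agent.GalCoh.Selmer

/-!
# Greenberg–Wiles for large sets of places
-/

set_option autoImplicit false

noncomputable section

namespace Fermat.Agent.GalCoh.GW

open ExtCitation Module

local notation "Γ" => (AlgebraicClosure ℚ ≃ₐ[ℚ] AlgebraicClosure ℚ)

variable {p : ℕ} [Fact p.Prime] {V : Type} [AddCommGroup V] [Module (ZMod p) V]

/-- The inequality at a set `S`, for all families of local conditions. -/
def InequalityAt (S : Finset Nat.Primes) (ρ : Representation (ZMod p) Γ V)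
    (inv : InvFamily p) : Prop :=
  ∀ (hd : IsCtsRep (levelsS S) (dualMu ρ)) (𝓛 : LocalConditions S ρ),
    (∀ u, FiniteDimensional (ZMod p) (𝓛 u)) →
    FiniteDimensional (ZMod p) (Sel S ρ 𝓛) ∧
    FiniteDimensional (ZMod p) (Sel S (dualMu ρ) (dualLocal S ρ inv hd 𝓛)) ∧
    finrank (ZMod p) (Sel S ρ 𝓛) + finrank (ZMod p) (H0 (dualMu ρ))
        + ∑ u, finrank (ZMod p) (H0 (ρ.comp (locAt S u)))
      ≤ finrank (ZMod p) (Sel S (dualMu ρ) (dualLocal S ρ inv hd 𝓛))
        + finrank (ZMod p) (H0 ρ) + ∑ u, finrank (ZMod p) (𝓛 u)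

/-- The inequality for all large sets of places. -/
def GreenbergWilesLarge (p : ℕ) [Fact p.Prime] : Prop :=
  ∀ (V : Type) [AddCommGroup V] [Module (ZMod p) V] [FiniteDimensional (ZMod p) V]
    (S : Finset Nat.Primes), pPrime p ∈ S → ∀ (ρ : Representation (ZMod p) Γ V),
    IsCtsRep (levelsS S) ρ → ∀ inv : InvFamily p, inv.IsReciprocal →
      ∃ T₁ : Finset Nat.Primes, S ⊆ T₁ ∧ ∀ T, T₁ ⊆ T → InequalityAt T ρ inv

end Fermat.Agent.GalCoh.GW
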