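import Fermat.Agent.GalCoh.Large
import Fermat.Agent.GalCoh.Euler.Transfer

/-!
# The Euler characteristic formula for the whole Galois group
-/

set_option autoImplicit false

noncomputable section

namespace Fermat.Agent.GalCoh.GW

open Representation (IntertwiningMap)
open ExtCitation Module MulAction

local notation "Γ" => (AlgebraicClosure ℚ ≃ₐ[ℚ] AlgebraicClosure ℚ)

variable {p : ℕ} [Fact p.Prime] {S : Finset Nat.Primes} {N : Subgroup Γ}
  {V : Type} [AddCommGroup V] [Module (ZMod p) V]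

/-- A representation of `Γ` on the top subgroup. -/
abbrev onTop (ρ : Representation (ZMod p) Γ V) : Representation (ZMod p) ↥(⊤ : Subgroup Γ) V :=
  ρ.comp (⊤ : Subgroup Γ).subtype

/-- From the whole group to the top subgroup. -/
def topMor (S : Finset Nat.Primes) (ρ : Representation (ZMod p) Γ V) :
    Mor (levelsS S) (levelsSOn (⊤ : Subgroup Γ) S) ρ (onTop ρ) :=
  Mor.res _ _ ρ _ ((levelsS S).compat_comap _)

/-- From the top subgroup to the whole group. -/
def botMor (S : Finset Nat.Primes) (ρ : Representation (ZMod p) Γ V) :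
    Mor (levelsSOn (⊤ : Subgroup Γ) S) (levelsS S) (onTop ρ) ρ where
  f := (MonoidHom.id Γ).codRestrict ⊤ fun _ => Subgroup.mem_top _
  φ := LinearMap.id
  comm _ _ := rfl
  compat := fun _ ⟨_, hW, hWU⟩ => (levelsS S).mono hW fun _ hx => hWU hx

theorem trivialOn_onTop {ρ : Representation (ZMod p) Γ V} (hρ : ∀ x ∈ N, ρ x = 1) :
    TrivialOn ⊤ (onTop ρ) N := fun x hx => hρ x hx

/-- The Euler characteristic formula for `Γ`, with large `S`. -/
theorem euler_top (hE : EulerFormula p) (hN : IsSplittingLevel p N) :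
    ∃ S₁ : Finset Nat.Primes, ∀ S, S₁ ⊆ S → ∀ (V : Type) [AddCommGroup V] [Module (ZMod p) V]
      [FiniteDimensional (ZMod p) V] (ρ : Representation (ZMod p) Γ V), (∀ x ∈ N, ρ x = 1) →
      FiniteDimensional (ZMod p) (H1 (levelsS S) ρ) ∧
      FiniteDimensional (ZMod p) (H2 (levelsS S) ρ) ∧
      finrank (ZMod p) (H1 (levelsS S) ρ) + finrank (ZMod p) (fixV ρ complexConjugation) =
        finrank (ZMod p) (H0 ρ) + finrank (ZMod p) (H2 (levelsS S) ρ) + finrank (ZMod p) V := by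
  obtain ⟨S₁, hS₁⟩ := hE N hN
  refine ⟨S₁, fun S hS V _ _ _ ρ hρ => ?_⟩
  obtain ⟨⟨f1, f2⟩, hd⟩ := hS₁ S hS ⊤ le_top V (onTop ρ) (trivialOn_onTop hρ)
  let e0 := Euler.equiv₀ (topMor S ρ) (botMor S ρ) (fun _ => rfl) fun _ => rfl
  let e1 := Euler.equiv₁ (topMor S ρ) (botMor S ρ) (fun _ => rfl) (fun _ => rfl) (fun _ => rfl)
    fun _ => rfl
  let e2 := Euler.equiv₂ (topMor S ρ) (botMor S ρ) (fun _ => rfl) (fun _ => rfl) (fun _ => rfl)
    fun _ => rfl
  refine ⟨Module.Finite.equiv e1.symm, Module.Finite.equiv e2.symm, ?_⟩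
  have hsub : Subsingleton (Γ ⧸ (⊤ : Subgroup Γ)) := QuotientGroup.subsingleton_quotient_top
  let x₀ : Γ ⧸ (⊤ : Subgroup Γ) := ((1 : Γ) : Γ ⧸ (⊤ : Subgroup Γ))
  have harch : twiceArch ⊤ (onTop ρ) =
      2 * (finrank (ZMod p) (fixV ρ complexConjugation) : ℤ) - 2 * finrank (ZMod p) V := by
    rw [twiceArch, finsum_eq_single _ x₀ (fun x hx => absurd (Subsingleton.elim x x₀) hx),
      archTerm_eq, dif_pos (Subgroup.mem_top _)]
    let a : V ≃ₗ[ZMod p] V :=
      LinearEquiv.ofLinearMap (ρ x₀.out) (ρ x₀.out⁻¹)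
        (LinearMap.ext fun v => by
          rw [LinearMap.comp_apply, ← Module.End.mul_apply, ← map_mul, mul_inv_cancel, map_one]; rfl)
        (LinearMap.ext fun v => by
          rw [LinearMap.comp_apply, ← Module.End.mul_apply, ← map_mul, inv_mul_cancel, map_one]; rfl)
    have hmap : (fixV (onTop ρ) (realInv x₀.out⁻¹ (Subgroup.mem_top _))).map
        (a : V →ₗ[ZMod p] V) = fixV ρ complexConjugation := by
      ext w
      rw [Submodule.mem_map_equiv, mem_fixV, mem_fixV]
      show ρ (conjC x₀.out⁻¹) (ρ x₀.out⁻¹ w) = ρ x₀.out⁻¹ w ↔ _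
      rw [← Module.End.mul_apply, ← map_mul, show conjC x₀.out⁻¹ * x₀.out⁻¹ =
        x₀.out⁻¹ * complexConjugation by simp [mul_assoc], map_mul, Module.End.mul_apply]
      exact a.symm.injective.eq_iff
    rw [← hmap, LinearEquiv.finrank_map_eq]
    push_cast
    ring
  rw [eulerDefect, chiS, ← e0.finrank_eq, ← e1.finrank_eq, ← e2.finrank_eq, harch] at hd
  omega

end Fermat.Agent.GalCoh.GW
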