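import Fermat.Agent.GalCoh.GW.Basic
import Fermat.Agent.GalCoh.GW.LowerBound
import Fermat.Agent.GalCoh.GW.Sha1
import Fermat.Agent.GalCoh.GW.Statement
import Fermat.Agent.GalCoh.GW.Top

/-!
# The Greenberg–Wiles inequality for large sets of places
-/

set_option autoImplicit false

noncomputable section

set_option maxSynthPendingDepth 5

namespace Fermat.Agent.GalCoh

open ExtCitation Module Descent

local notation "Ω" => AlgebraicClosure ℚ
local notation "Γ" => (AlgebraicClosure ℚ ≃ₐ[ℚ] AlgebraicClosure ℚ)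

variable {p : ℕ} [Fact p.Prime]

/-- Complex conjugation moves a square root of `-1`. -/
theorem complexConjugation_sqrt_neg_one {z : Ω} (hz : z ^ 2 = -1) : complexConjugation z ≠ z := by
  intro hfix
  obtain ⟨r, hr⟩ := Complex.conj_eq_iff_real.mp ((complexEmbedding_apply_eq_iff z).mp hfix)
  have h2 : complexEmbedding z ^ 2 = -1 := by rw [← map_pow, hz, map_neg, map_one]
  rw [hr, ← Complex.ofReal_pow] at h2
  have h3 := congrArg Complex.re h2
  rw [Complex.ofReal_re, Complex.neg_re, Complex.one_re] at h3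
  nlinarith [sq_nonneg r]

/-- Splitting levels are cofinal. -/
theorem exists_splittingLevel (p : ℕ) [Fact p.Prime] {U : Subgroup Γ} (hU : fullLevels.mem U) :
    ∃ N : Subgroup Γ, IsSplittingLevel p N ∧ N ≤ U := by
  obtain ⟨z, hz⟩ := IsAlgClosed.exists_pow_nat_eq (-1 : Ω) (two_pos)
  obtain ⟨N, hN, hNn, hNU, hfix⟩ := exists_normal_fixes hU ![zetaP p, z]
  exact ⟨N, ⟨hN, hNn, fun τ hτ => cycloChar_eq_one (hfix τ hτ 0),
    fun hc => complexConjugation_sqrt_neg_one hz (hfix _ hc 1)⟩, hNU⟩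

variable {V : Type} [AddCommGroup V] [Module (ZMod p) V] [FiniteDimensional (ZMod p) V]

/-- The fixed vectors of complex conjugation in the dual. -/
theorem finrank_fixV_dualMu (ρ : Representation (ZMod p) Γ V) :
    finrank (ZMod p) (LinearMap.range (ρ complexConjugation + 1)) +
      finrank (ZMod p) (fixV (dualMu ρ) complexConjugation) = finrank (ZMod p) V := by
  have e : fixV (dualMu ρ) complexConjugation =
      (LinearMap.range (ρ complexConjugation + 1)).dualAnnihilator := by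
    ext f
    rw [mem_fixV, Submodule.mem_dualAnnihilator]
    constructor
    · rintro h _ ⟨v, rfl⟩
      have h1 := LinearMap.congr_fun h v
      rw [dualMu_apply, cycloChar_complexConjugation, complexConjugation_inv] at h1
      rw [LinearMap.add_apply, Module.End.one_apply, map_add]
      linear_combination -h1
    · intro h
      refine LinearMap.ext fun v => ?_
      have h1 := h _ ⟨v, rfl⟩
      rw [LinearMap.add_apply, Module.End.one_apply, map_add] at h1
      rw [dualMu_apply, cycloChar_complexConjugation, complexConjugation_inv]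
      linear_combination -h1
  rw [e]
  exact Subspace.finrank_add_finrank_dualAnnihilator_eq _

variable {S : Finset Nat.Primes} {N : Subgroup Γ}

/-- `Ш¹` against `H²` of the dual. -/
theorem finrank_sha1_add_sum_le (h : VeryLarge p S N) (hC : CFTInputs p) {inv : InvFamily p}
    (hinv : inv.IsReciprocal) (htwo : ∀ r : Nat.Primes, ∃ q ∈ S, q ≠ r)
    {ρ : Representation (ZMod p) Γ V} (hρN : ∀ n ∈ N, ρ n = 1)
    (hvan : ∀ c ∈ Z1 (levelsS S) ρ,
      (∀ u : extArithIndex S, ∃ w, ∀ d, c (locAt S u d) = ρ (locAt S u d) w - w) →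
      ∀ n ∈ N, c n = 0)
    [FiniteDimensional (ZMod p) (H1 (levelsS S) ρ)]
    [FiniteDimensional (ZMod p) (H2 (levelsS S) (dualMu ρ))] :
    finrank (ZMod p) (sha1 S ρ) + ∑ u, finrank (ZMod p) (H0 (ρ.comp (locAt S u))) ≤
      finrank (ZMod p) (H2 (levelsS S) (dualMu ρ)) + finrank (ZMod p) (H0 ρ) +
        finrank (ZMod p) (LinearMap.range (ρ complexConjugation + 1)) := by
  obtain ⟨g, hg⟩ := (H1mk (levelsS S) ρ).exists_rightInverse_of_surjective
    (LinearMap.range_eq_top.mpr H1mk_surjective)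
  have hg' : ∀ x, H1mk (levelsS S) ρ (g x) = x := fun x => LinearMap.congr_fun hg x
  have hloc : ∀ (u : extArithIndex S) (x : sha1 S ρ), ∃ v,
      ∀ d, (g x.1).1 (locAt S u d) = ρ (locAt S u d) v - v := fun u x => by
    have h1 := (mem_sha1_iff S ρ).mp x.2 u
    rw [← hg' x.1, resAt, Mor.map₁_mk, H1mk_eq_zero_iff] at h1
    exact mem_B1_iff.mp h1
  refine finrank_add_sum_h0_le h hC hinv htwo hρN
    ((Z1 (levelsS S) ρ).subtype ∘ₗ g ∘ₗ (sha1 S ρ).subtype) (fun x a b => ?_)
    (fun x n hn => hvan _ (g x.1).2 (fun u => hloc u x) n hn) hloc fun x v hv => ?_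
  · show (g x.1).1 (a * b) = (g x.1).1 a + ρ a ((g x.1).1 b)
    rw [(mem_Z1_iff.mp (g x.1).2).1, add_comm]
  · refine Subtype.ext ?_
    show x.1 = 0
    rw [← hg' x.1, H1mk_eq_zero_iff, mem_B1_iff]
    exact ⟨v, hv⟩

/-- **Greenberg–Wiles at all large sets of places.** -/
theorem greenbergWilesLarge_of (hC : CFTInputs p) (hE : EulerFormula p) :
    GW.GreenbergWilesLarge p := by
  intro V _ _ _ S hpS ρ hρ inv hinv
  obtain ⟨U, hU, hUρ⟩ := hρ
  obtain ⟨N, hN, hNU⟩ := exists_splittingLevel p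
    (show fullLevels.mem U by simpa using compat_levelsS S hU)
  have hρN : ∀ n ∈ N, ρ n = 1 := fun n hn => hUρ n (hNU hn)
  have hdN : ∀ n ∈ N, dualMu ρ n = 1 := fun n hn =>
    LinearMap.ext fun f => LinearMap.ext fun v => by
      rw [dualMu_apply, hN.mu n hn, hρN _ (N.inv_mem hn)]
      simp
  obtain ⟨T₁, hT₁⟩ := GW.euler_top hE hN
  obtain ⟨T₂, hT₂⟩ := exists_veryLarge hC.descentS hN
  obtain ⟨T₃, hT₃⟩ := exists_vanishing_set hE hN V
  classical
  refine ⟨S ∪ T₁ ∪ T₂ ∪ T₃ ∪ {⟨2, Nat.prime_two⟩, ⟨3, Nat.prime_three⟩},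
    fun x hx => by simp [hx], fun T hT hd 𝓛 h𝓛 => ?_⟩
  simp only [Finset.union_subset_iff] at hT
  obtain ⟨⟨⟨⟨hST, h1⟩, h2⟩, h3⟩, h23⟩ := hT
  have h2T : (⟨2, Nat.prime_two⟩ : Nat.Primes) ∈ T := h23 (Finset.mem_insert_self _ _)
  have h3T : (⟨3, Nat.prime_three⟩ : Nat.Primes) ∈ T :=
    h23 (Finset.mem_insert_of_mem (Finset.mem_singleton_self _))
  obtain ⟨fd1, -, -⟩ := hT₁ T h1 V ρ hρN
  obtain ⟨fd1', fd2', heuler⟩ := hT₁ T h1 (Dual (ZMod p) V) (dualMu ρ) hdN
  have := fd1
  have := fd1'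
  have := fd2'
  have := h𝓛
  refine ⟨inferInstance, inferInstance, ?_⟩
  have htwo : ∀ r : Nat.Primes, ∃ q ∈ T, q ≠ r := fun r => by
    by_cases hr : r = ⟨2, Nat.prime_two⟩
    · exact ⟨_, h3T, by rw [hr]; exact fun e => absurd (congrArg Subtype.val e) (by norm_num)⟩
    · exact ⟨_, h2T, fun e => hr e.symm⟩
  have hA := sel_add_finrank_le T ρ hd hinv (hST hpS) 𝓛
  have hB := finrank_sha1_add_sum_le (hT₂ T h2) hC hinv htwo hρN (hT₃ T h3 ρ hρN)
  have hfix := finrank_fixV_dualMu ρ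
  rw [Subspace.dual_finrank_eq] at heuler
  linarith

end Fermat.Agent.GalCoh
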