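import Fermat.Agent.GalCoh.Selmer
import Fermat.Agent.GalCoh.EulerDefs
import Fermat.Agent.GalCoh.Descent.LocalClass
import Fermat.Agent.Frobenius.Exists

/-!
# Levels from inertia, decomposition groups from the local groups

An open subgroup containing inertia outside `S` is an `S`-level, and every decomposition group is
conjugate to the image of a local group.
-/

set_option autoImplicit false

noncomputable section

namespace Fermat.Agent.GalCoh.GW

open ExtCitation
open scoped Pointwise

local notation "Ω" => AlgebraicClosure ℚ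
local notation "Γ" => (AlgebraicClosure ℚ ≃ₐ[ℚ] AlgebraicClosure ℚ)

/-- An open subgroup containing the inertia groups outside `S` is an `S`-level. -/
theorem levelsS_mem_of_inertia_le {S : Finset Nat.Primes} {U : Subgroup Γ}
    (hU : fullLevels.mem U)
    (h : ∀ q : Nat.Primes, q ∉ S → ∀ A : ValuationSubring Ω, A.LiesOverPrime (q : ℕ) →
      A.inertiaSubgroupIn ℚ ≤ U) : (levelsS S).mem U :=
  ⟨IntermediateField.fixedField U, ⟨Descent.finiteDimensional_fixedField hU, fun q hq A hA => by
    rw [Descent.fixingSubgroup_fixedField_of_mem hU]; exact h q hq A hA⟩,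
    (Descent.fixingSubgroup_fixedField_of_mem hU).le⟩

/-- The decomposition groups over `q` are the conjugates of the image of the local group. -/
theorem exists_conj_placeLoc {q : Nat.Primes} {A : ValuationSubring Ω}
    (hA : A.LiesOverPrime (q : ℕ)) {σ : Γ} (hσ : σ ∈ A.decompositionSubgroup ℚ) :
    ∃ g : Γ, ∃ d : placeGroup (Sum.inr q), g * placeLoc (Sum.inr q) d * g⁻¹ = σ := by
  obtain ⟨g, rfl⟩ := Frobenius.exists_smul_eq_of_liesOverPrime_qbar q.2
    (Descent.primeLocalPlace_liesOver q) hA
  obtain ⟨d, hd⟩ := Descent.exists_conjLoc_eq q g hσ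
  exact ⟨g, d, hd⟩

end Fermat.Agent.GalCoh.GW
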