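import Fermat.Agent.GalCoh.Selmer
import Fermat.Agent.GalCoh.Corestrict

/-!
# Pairing local invariant vectors with global two-classes of the dual

A vector fixed by a decomposition group gives a functional on the two-classes of the dual module.
The test classes come from the two-place classes of the splitting field.
-/

set_option autoImplicit false

noncomputable section

namespace Fermat.Agent.GalCoh

open ExtCitation Module MulAction
open Representation (IntertwiningMap)

local notation "Γ" => (AlgebraicClosure ℚ ≃ₐ[ℚ] AlgebraicClosure ℚ)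

variable {p : ℕ} [Fact p.Prime] {E : Type} [AddCommGroup E] [Module (ZMod p) E]
  (ε : Representation (ZMod p) Γ E) (S : Finset Nat.Primes)

/-- Evaluation at a local invariant vector. -/
def evLoc (v : Place) (w : H0 (ε.comp (placeLoc v))) :
    Mor (levelsS S) (localLevels (placeLoc v)) (dualMu ε) ((muRep p).comp (placeLoc v)) where
  f := placeLoc v
  φ := LinearMap.applyₗ (w : E)
  comm d f := by
    have h : ε (placeLoc v d)⁻¹ (w : E) = w := by
      rw [← map_inv]
      exact w.2 d⁻¹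
    rw [LinearMap.applyₗ_apply_apply, LinearMap.applyₗ_apply_apply, MonoidHom.comp_apply,
      muRep_apply, dualMu_apply, h]
  compat := (compat_levelsS S).comp (fullLevels.compat_comap _)

/-- The functional of a local invariant vector on the two-classes of the dual. -/
def evPair (inv : InvFamily p) (v : Place) :
    H0 (ε.comp (placeLoc v)) →ₗ[ZMod p] Dual (ZMod p) (H2 (levelsS S) (dualMu ε)) where
  toFun w := inv v ∘ₗ (evLoc ε S v w).map₂
  map_add' w w' := by
    refine LinearMap.ext fun z => ?_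
    obtain ⟨F, rfl⟩ := H2mk_surjective z
    rw [LinearMap.add_apply, LinearMap.comp_apply, LinearMap.comp_apply, LinearMap.comp_apply,
      Mor.map₂_mk, Mor.map₂_mk, Mor.map₂_mk, ← map_add, ← map_add]
    refine congrArg _ (congrArg _ (Subtype.ext (funext fun q => ?_)))
    show (_ : Dual (ZMod p) E) ((w : E) + w') = _
    rw [map_add]
    rfl
  map_smul' t w := by
    refine LinearMap.ext fun z => ?_
    obtain ⟨F, rfl⟩ := H2mk_surjective z
    rw [RingHom.id_apply, LinearMap.smul_apply, LinearMap.comp_apply, LinearMap.comp_apply,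
      Mor.map₂_mk, Mor.map₂_mk, ← map_smul, ← map_smul]
    refine congrArg _ (congrArg _ (Subtype.ext (funext fun q => ?_)))
    show (_ : Dual (ZMod p) E) (t • (w : E)) = _
    rw [map_smul]
    rfl

theorem evPair_apply (inv : InvFamily p) (v : Place) (w : H0 (ε.comp (placeLoc v)))
    (z : H2 (levelsS S) (dualMu ε)) :
    evPair ε S inv v w z = inv v ((evLoc ε S v w).map₂ z) := rfl

section Test

variable {N : Subgroup Γ} [Fintype (Γ ⧸ N)]

/-- From functions on `Γ ⧸ N` to the dual, through a functional. -/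
def pairMap (_hN : N.Normal) (hε : ∀ n ∈ N, ε n = 1) (f : Dual (ZMod p) E) :
    IntertwiningMap (permRep (muRep p) (Γ ⧸ N)) (dualMu ε) :=
  LinearMap.intertwiningMap_of_isIntertwiningMap _ _
    (∑ x : Γ ⧸ N, LinearMap.smulRight (LinearMap.proj x) (f.comp (ε x.out⁻¹))) fun g F => by
    refine LinearMap.ext fun w => ?_
    simp only [LinearMap.sum_apply, LinearMap.smulRight_apply, LinearMap.proj_apply,
      permRep_apply, muRep_apply, map_sum, map_smul, LinearMap.smul_apply, smul_eq_mul,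
      dualMu_apply, LinearMap.comp_apply]
    refine (Fintype.sum_equiv (MulAction.toPerm g) _ _ fun y => ?_).symm
    have hn : (g • y).out⁻¹ * (g * y.out) ∈ N :=
      QuotientGroup.eq.mp (by
        rw [QuotientGroup.out_eq', ← smul_eq_mul, ← MulAction.Quotient.smul_coe,
          QuotientGroup.out_eq'])
    have e : ε y.out⁻¹ (ε g⁻¹ w) = ε (g • y).out⁻¹ w := by
      have h1 := hε _ (N.inv_mem hn)
      rw [mul_inv_rev, inv_inv, map_mul] at h1
      conv_rhs => rw [← Module.End.one_apply (R := ZMod p) (M := E) (ε (g • y).out⁻¹ w), ← h1]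
      simp only [← Module.End.mul_apply, ← map_mul]
      congr 2
      group
    show F y * ((cycloChar p g : ZMod p) * f (ε y.out⁻¹ (ε g⁻¹ w))) =
      (cycloChar p g : ZMod p) * F (g⁻¹ • g • y) * f (ε (g • y).out⁻¹ w)
    rw [inv_smul_smul, e]
    ring

theorem pairMap_apply (hN : N.Normal) (hε : ∀ n ∈ N, ε n = 1) (f : Dual (ZMod p) E)
    (F : Γ ⧸ N → ZMod p) (w : E) :
    pairMap ε hN hε f F w = ∑ x, F x * f (ε x.out⁻¹ w) := by
  show (∑ x : Γ ⧸ N, LinearMap.smulRight (LinearMap.proj x) (f.comp (ε x.out⁻¹)) :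
    (Γ ⧸ N → ZMod p) →ₗ[ZMod p] Dual (ZMod p) E) F w = _
  simp [LinearMap.sum_apply]

/-- Multiplication by an invariant function. -/
def mulMap {D X : Type} [Group D] [MulAction D X] (τ : Representation (ZMod p) D (ZMod p))
    (c : X → ZMod p) (hc : ∀ (d : D) (x : X), c (d • x) = c x) :
    IntertwiningMap (permRep τ X) (permRep τ X) :=
  LinearMap.intertwiningMap_of_isIntertwiningMap _ _
    (LinearMap.pi fun x => c x • LinearMap.proj x) fun d F => by
    funext x
    simp only [LinearMap.pi_apply, LinearMap.smul_apply, LinearMap.proj_apply, permRep_apply,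
      map_smul]
    rw [hc]

theorem pointMor_mulMap {D X : Type} [Group D] [MulAction D X] (L : Levels D)
    (τ : Representation (ZMod p) D (ZMod p)) (c : X → ZMod p)
    (hc : ∀ (d : D) (x : X), c (d • x) = c x) (x : X) (z : H2 L (permRep τ X)) :
    (pointMor L τ x).map₂ ((Mor.ofMap L (mulMap τ c hc)).map₂ z) =
      c x • (pointMor L τ x).map₂ z := by
  obtain ⟨F, rfl⟩ := H2mk_surjective z
  rw [Mor.map₂_mk, Mor.map₂_mk, Mor.map₂_mk, ← map_smul]
  exact congrArg _ (Subtype.ext (funext fun q => rfl))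

/-- Splitting a pairing off its constant part. -/
theorem evLoc_pairMap_split (hN : N.Normal) (hε : ∀ n ∈ N, ε n = 1)
    (W : H2 (levelsS S) (permRep (muRep p) (Γ ⧸ N))) (f : Dual (ZMod p) E) (v : Place)
    (w : H0 (ε.comp (placeLoc v))) (k : ZMod p) (c : Γ ⧸ N → ZMod p)
    (hck : ∀ x, f (ε x.out⁻¹ w) = c x + k)
    (hc : letI := pullAction (placeLoc v) (Γ ⧸ N)
      ∀ (d : placeGroup v) (x : Γ ⧸ N), c (d • x) = c x) :
    letI := pullAction (placeLoc v) (Γ ⧸ N)
    (evLoc ε S v w).map₂ ((Mor.ofMap (levelsS S) (pairMap ε hN hε f)).map₂ W) =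
      (Mor.ofMap (localLevels (placeLoc v)) (sumMap ((muRep p).comp (placeLoc v)) (Γ ⧸ N))).map₂
        ((Mor.ofMap (localLevels (placeLoc v)) (mulMap ((muRep p).comp (placeLoc v)) c hc)).map₂
          ((permRes (levelsS S) (localLevels (placeLoc v)) (muRep p) (Γ ⧸ N) (placeLoc v)
            ((compat_levelsS S).comp (fullLevels.compat_comap _))).map₂ W)) +
      k • (Mor.res (levelsS S) (localLevels (placeLoc v)) (muRep p) (placeLoc v)
        ((compat_levelsS S).comp (fullLevels.compat_comap _))).map₂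
          ((Mor.ofMap (levelsS S) (sumMap (muRep p) (Γ ⧸ N))).map₂ W) := by
  let := pullAction (placeLoc v) (Γ ⧸ N)
  obtain ⟨F, rfl⟩ := H2mk_surjective W
  simp only [Mor.map₂_mk]
  rw [← map_smul, ← map_add]
  refine congrArg _ (Subtype.ext (funext fun q => ?_))
  show pairMap ε hN hε f ((F : Γ × Γ → Γ ⧸ N → ZMod p) (placeLoc v q.1, placeLoc v q.2)) (w : E) =
    sumMap ((muRep p).comp (placeLoc v)) (Γ ⧸ N)
      (fun x => c x • (F : Γ × Γ → Γ ⧸ N → ZMod p) (placeLoc v q.1, placeLoc v q.2) x) +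
    k • sumMap (muRep p) (Γ ⧸ N)
      ((F : Γ × Γ → Γ ⧸ N → ZMod p) (placeLoc v q.1, placeLoc v q.2))
  rw [pairMap_apply, sumMap_apply, sumMap_apply, Finset.smul_sum, ← Finset.sum_add_distrib]
  refine Finset.sum_congr rfl fun x _ => ?_
  simp only [hck, smul_eq_mul]
  ring

/-- A test class, evaluated at a local invariant vector. -/
theorem evLoc_pairMap (hNf : fullLevels.mem N) (hN : N.Normal) (hε : ∀ n ∈ N, ε n = 1)
    (hmu : ∀ n ∈ N, cycloChar p n = 1)
    (W : H2 (levelsS S) (permRep (muRep p) (Γ ⧸ N))) (f : Dual (ZMod p) E) (v : Place) (g₁ : Γ)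
    (hW : ∀ g, ¬ SamePlace N v g₁ v g →
      (pointLoc p (levelsS S) (compat_levelsS S) N v g).map₂ W = 0)
    (w : H0 (ε.comp (placeLoc v))) :
    (evLoc ε S v w).map₂ ((Mor.ofMap (levelsS S) (pairMap ε hN hε f)).map₂ W) =
      f (ε g₁ w) • (Mor.res (levelsS S) (localLevels (placeLoc v)) (muRep p) (placeLoc v)
        ((compat_levelsS S).comp (fullLevels.compat_comap _))).map₂
          ((Mor.ofMap (levelsS S) (sumMap (muRep p) (Γ ⧸ N))).map₂ W) := by
  classical
  let := pullAction (placeLoc v) (Γ ⧸ N)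
  let c : Γ ⧸ N → ZMod p := fun x => f (ε x.out⁻¹ w) - f (ε g₁ w)
  have hcoe : ∀ a : Γ, ε ((a : Γ ⧸ N).out⁻¹) (w : E) = ε a⁻¹ w := fun a => by
    obtain ⟨⟨n, hn⟩, e⟩ := QuotientGroup.mk_out_eq_mul N a
    rw [show ((a : Γ ⧸ N)).out = a * n from e, mul_inv_rev, map_mul, hε _ (N.inv_mem hn), one_mul]
  have hc : ∀ (d : placeGroup v) (x : Γ ⧸ N), c (d • x) = c x := fun d x => by
    obtain ⟨a, rfl⟩ := QuotientGroup.mk_surjective x
    show f (ε ((placeLoc v d • (a : Γ ⧸ N)).out⁻¹) w) - _ = f (ε ((a : Γ ⧸ N).out⁻¹) w) - _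
    rw [MulAction.Quotient.smul_coe, smul_eq_mul, hcoe, hcoe, mul_inv_rev, map_mul,
      Module.End.mul_apply]
    have := w.2 d⁻¹
    rw [MonoidHom.comp_apply, map_inv] at this
    rw [this]
  let Y := (Mor.ofMap (localLevels (placeLoc v)) (mulMap ((muRep p).comp (placeLoc v)) c hc)).map₂
    ((permRes (levelsS S) (localLevels (placeLoc v)) (muRep p) (Γ ⧸ N) (placeLoc v)
      ((compat_levelsS S).comp (fullLevels.compat_comap _))).map₂ W)
  have hY : Y = 0 := by
    refine eq_zero_of_pointMor_eq_zero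
      ((isCtsRep_muRep_of_mem (L := fullLevels) hNf hmu).comp (fullLevels.compat_comap _))
      (fun x => ⟨N, hNf, fun (d : placeGroup v) hd =>
        (smul_eq_self_of_normal hN le_rfl hd x :
          placeLoc v d • x = x)⟩) _ fun o => ?_
    obtain ⟨a, ha⟩ := QuotientGroup.mk_surjective o.out
    by_cases hs : SamePlace N v g₁ v a⁻¹
    · have hc0 : c o.out = 0 := by
        obtain ⟨-, n, hn, d, hd⟩ := hs
        have := w.2 d
        rw [MonoidHom.comp_apply] at this
        show f (ε o.out.out⁻¹ w) - f (ε g₁ w) = 0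
        rw [← ha, hcoe, hd, map_mul, map_mul, hε n hn, one_mul, Module.End.mul_apply, this,
          sub_self]
      exact (pointMor_mulMap _ _ c hc _ _).trans (by rw [hc0, zero_smul])
    · have h0 := congrArg (toStabMor p N v a⁻¹).map₂ (hW a⁻¹ hs)
      rw [map_zero, toStabMor_pointLoc] at h0
      have e : placePoint N a⁻¹ = o.out := by rw [← ha, placePoint, inv_inv]
      rw [e] at h0
      exact (pointMor_mulMap _ _ c hc _ _).trans
        ((congrArg (c o.out • ·) h0).trans (smul_zero (c o.out)))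
  rw [evLoc_pairMap_split ε S hN hε W f v w (f (ε g₁ w)) c (fun x => (sub_add_cancel _ _).symm) hc]
  show (Mor.ofMap (localLevels (placeLoc v))
    (sumMap ((muRep p).comp (placeLoc v)) (Γ ⧸ N))).map₂ Y + _ = _
  rw [hY, map_zero, zero_add]

variable {ε S}

/-- **The test classes**: two places of the splitting field, one above a split prime. -/
theorem exists_testClass (h : LargeS p S N) (hC : CFTInputs p) {inv : InvFamily p}
    (hinv : inv.IsReciprocal) {q₀ q : Nat.Primes} (hq₀S : q₀ ∈ S) (hqS : q ∈ S)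
    (hne : q ≠ q₀) (hq₀ : SplitIn N q₀) (g₁ : Γ) (hε : ∀ n ∈ N, ε n = 1) :
    ∃ (z : Dual (ZMod p) E → H2 (levelsS S) (dualMu ε)) (A : ZMod p), A ≠ 0 ∧
      ∀ (f : Dual (ZMod p) E) (e : ∀ u : extArithIndex S, H0 (ε.comp (locAt S u))),
        ∑ u, evPair ε S inv (toPlace u) (e u) (z f) =
          A * (f (e (Sum.inr ⟨q₀, hq₀S⟩) : E) - f (ε g₁ (e (Sum.inr ⟨q, hqS⟩)))) := by
  classical
  have hN := h.split_level.normal
  have hmu := h.split_level.mu
  have hNf := h.split_level.mem
  obtain ⟨y₀, hy2, hy3⟩ := (hC.twoPlaceClasses N hNf hN hmu h.split_level.complex q₀ hq₀ 1).1 q g₁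
    fun hs => hne (Sum.inr_injective hs.1).symm
  obtain ⟨y, hy⟩ := (h.good N le_rfl).surj y₀ fun v g hv => hy3 v g
    (fun hs => hv (by obtain ⟨rfl, -⟩ := hs; exact hq₀S))
    (fun hs => hv (by obtain ⟨rfl, -⟩ := hs; exact hqS))
  obtain ⟨W, hW⟩ := (evalMor_map₂_bijective (ρ := muRep p) h.isCtsRep_muRep h.level).2 y
  have hcomp : ∀ v g, (pointLoc p (levelsS S) (compat_levelsS S) N v g).map₂ W =
      (placeMor p N v g).map₂ y₀ := fun v g => by
    rw [← placeMor_evalMor, hW, ← hy]
    rfl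
  let Z : H2 (levelsS S) (muRep p) :=
    (Mor.ofMap (levelsS S) (sumMap (muRep p) (Γ ⧸ N))).map₂ W
  let a : extArithIndex S → ZMod p := fun u =>
    inv (toPlace u) ((Mor.res (levelsS S) (localLevels (locAt S u)) (muRep p) (locAt S u)
      (compat_locAt S u)).map₂ Z)
  have hoff : ∀ u : extArithIndex S, toPlace u ≠ Sum.inr q₀ → toPlace u ≠ Sum.inr q →
      ∀ g, (pointLoc p (levelsS S) (compat_levelsS S) N (toPlace u) g).map₂ W = 0 :=
    fun u h₀ h₁ g => by
      rw [hcomp]
      exact hy3 _ _ (fun hs => h₀ hs.1.symm) fun hs => h₁ hs.1.symm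
  have ha : ∀ u : extArithIndex S, toPlace u ≠ Sum.inr q₀ → toPlace u ≠ Sum.inr q →
      a u = 0 := fun u h₀ h₁ => by
    show inv _ _ = 0
    rw [show (Mor.res (levelsS S) (localLevels (locAt S u)) (muRep p) (locAt S u)
      (compat_locAt S u)).map₂ Z = 0 from
        res_sum_eq_zero (compat_levelsS S) h.level h.isCtsRep_muRep (toPlace u) W (hoff u h₀ h₁),
      map_zero]
  have hne' : (Sum.inr ⟨q₀, hq₀S⟩ : extArithIndex S) ≠ Sum.inr ⟨q, hqS⟩ := fun e =>
    hne (congrArg Subtype.val (Sum.inr_injective e)).symm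
  have hplace : ∀ u : extArithIndex S, ∀ r (hr : r ∈ S), toPlace u = Sum.inr r →
      u = Sum.inr ⟨r, hr⟩ := fun u r hr e => by
    rcases u with u | u
    · exact absurd e Sum.inl_ne_inr
    · exact congrArg Sum.inr (Subtype.ext (Sum.inr_injective e))
  have hrec : a (Sum.inr ⟨q₀, hq₀S⟩) + a (Sum.inr ⟨q, hqS⟩) = 0 := by
    refine Eq.trans ?_ (hinv.2 S h.p_mem Z)
    exact (Finset.sum_eq_add _ _ hne' (fun u _ hu => ha u (fun e => hu.1 (hplace u _ _ e))
      fun e => hu.2 (hplace u _ _ e)) (fun h' => absurd (Finset.mem_univ _) h')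
      fun h' => absurd (Finset.mem_univ _) h').symm
  refine ⟨fun f => (Mor.ofMap (levelsS S) (pairMap ε hN hε f)).map₂ W,
    a (Sum.inr ⟨q₀, hq₀S⟩), ?_, fun f e => ?_⟩
  · intro h0
    have hloc := (injective_iff_map_eq_zero _).mp (hinv.1 _) _ h0
    have hc := (compat_levelsS S).comp (fullLevels.compat_comap (placeLoc (Sum.inr q₀)))
    have hfix : ∀ (x : Γ ⧸ N) d, placeLoc (Sum.inr q₀) d • x = x := fun x d =>
      splitIn_smul_eq hq₀ hN le_rfl d x
    refine hy2 ?_
    rw [← hcomp]
    have key : (projMor (levelsS S) _ (muRep p) (Γ ⧸ N) _ hc (placePoint N 1) (hfix _)).map₂ W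
        = 0 := by
      refine (res_sumMap_eq_proj _ hc hfix (placePoint N 1) W fun x hx => ?_).symm.trans hloc
      obtain ⟨b, rfl⟩ := QuotientGroup.mk_surjective x
      refine projMor_eq_zero_of_pointMor _ _ _ _ _ ?_
      have hb : (pointLoc p (levelsS S) (compat_levelsS S) N (Sum.inr q₀) b⁻¹).map₂ W = 0 := by
        rw [hcomp]
        refine hy3 _ _ (fun hs => hx ?_) fun hs => hne (Sum.inr_injective hs.1)
        obtain ⟨-, n, hn, d, hd⟩ := hs
        rw [mul_one] at hd
        rw [placePoint, QuotientGroup.eq, inv_one, mul_one, hd]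
        exact N.mul_mem hn (hq₀ d)
      have h1 := congrArg (toStabMor p N (Sum.inr q₀) b⁻¹).map₂ hb
      rw [map_zero, toStabMor_pointLoc] at h1
      rw [show ((b : Γ) : Γ ⧸ N) = placePoint N b⁻¹ by rw [placePoint, inv_inv]]
      exact h1
    have h2 := congrArg (toSplit p N (Sum.inr q₀) 1).map₂ key
    rw [map_zero, Mor.map₂_map₂] at h2
    rw [← h2]
    exact Mor.map₂_congr rfl rfl W
  · have hterm : ∀ (u : extArithIndex S) (g : Γ),
        (∀ g', ¬ SamePlace N (toPlace u) g (toPlace u) g' →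
          (pointLoc p (levelsS S) (compat_levelsS S) N (toPlace u) g').map₂ W = 0) →
        evPair ε S inv (toPlace u) (e u) ((Mor.ofMap (levelsS S) (pairMap ε hN hε f)).map₂ W) =
          f (ε g (e u)) * a u := fun u g hg => by
      rw [evPair_apply, evLoc_pairMap ε S hNf hN hε hmu W f (toPlace u) g hg (e u),
        map_smul, smul_eq_mul]
    refine (Finset.sum_eq_add (Sum.inr ⟨q₀, hq₀S⟩ : extArithIndex S) (Sum.inr ⟨q, hqS⟩) hne'
      (fun u _ hu => ?_) (fun h' => absurd (Finset.mem_univ _) h')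
      (fun h' => absurd (Finset.mem_univ _) h')).trans ?_
    · rw [hterm u 1 fun g _ => hoff u (fun e => hu.1 (hplace u _ _ e))
          (fun e => hu.2 (hplace u _ _ e)) g,
        ha u (fun e => hu.1 (hplace u _ _ e)) (fun e => hu.2 (hplace u _ _ e)), mul_zero]
    · rw [hterm (Sum.inr ⟨q₀, hq₀S⟩) 1 fun g hg => (hcomp _ _).trans
          (hy3 _ _ hg fun hs => hne (Sum.inr_injective hs.1)),
        hterm (Sum.inr ⟨q, hqS⟩) g₁ fun g hg => (hcomp _ _).trans
          (hy3 _ _ (fun hs => hne (Sum.inr_injective hs.1).symm) hg),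
        map_one, Module.End.one_apply, eq_neg_of_add_eq_zero_right hrec]
      ring

end Test

end Fermat.Agent.GalCoh
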